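import Fermat.Agent.Lib.Div.Defs
import Fermat.Agent.Lib.RR.OfModularCFinal
import Fermat.Agent.S17.H.Setup.Cusp

set_option autoImplicit false

/-!
# DIV, work package R: the Riemann-Roch hypotheses for `X₀(N)` over EVERY algebraically closed
field of characteristic `0`

On main: `Fermat.Agent.RRMod.isRRField_fullC' k N : IsRRField k (modularFunctionFieldFullC k N)`
for every algebraically closed `k`.  Missing bridge: for a field `L` of characteristic `0`
`laurentBaseChange L (modularFunctionFieldFull N) = modularFunctionFieldFullC L N`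
(both are `L(j(q^d) : d ∣ N)` inside `LaurentSeries L`).

Proofs: helper19.  The pole of `j` is the place of the `q`-adic order
(`Fermat.Agent.S17.Setup.laurentPlace`).
-/

noncomputable section

namespace Fermat.Agent.Div

open ModularCurve HahnSeries AlgebraicCurve Fermat.Agent.RR Fermat.Agent.F3I2

/-- `coeffEmb` maps the generators of `F_N` over `ℚ` to the generators over `L`. -/
theorem coeffEmb_qExpand_jq_all (L : Type*) [Field L] [Algebra ℚ L] (d : ℕ) [NeZero d] :
    coeffEmb L (qExpand ℚ d jq) = qExpand L d (jqModC L) := by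
  unfold coeffEmb
  rw [coeffMap_qExpand, ← jqModC_rat, coeffMap_jqModC]

/-- `coeffEmb` maps `F_N` (over `ℚ`) into `F_N` over `L`. -/
theorem coeffEmb_mem_fullC (N : ℕ) (L : Type*) [Field L] [Algebra ℚ L]
    {x : LaurentSeries ℚ} (hx : x ∈ modularFunctionFieldFull N) :
    coeffEmb L x ∈ modularFunctionFieldFullC L N := by
  unfold modularFunctionFieldFull at hx
  induction hx using IntermediateField.adjoin_induction with
  | mem x hx =>
    obtain ⟨d, hdne, hd, rfl⟩ := hx
    rw [coeffEmb_qExpand_jq_all]
    exact jqModCd_mem_full L N hd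
  | algebraMap c =>
    have h1 : coeffEmb L (algebraMap ℚ (LaurentSeries ℚ) c) = ((c : ℚ) : LaurentSeries L) := by
      rw [eq_ratCast, map_ratCast]
    rw [h1]
    exact SubfieldClass.ratCast_mem _ c
  | add x y _ _ hx hy =>
    rw [map_add]
    exact add_mem hx hy
  | inv x _ hx =>
    rw [map_inv₀]
    exact inv_mem hx
  | mul x y _ _ hx hy =>
    rw [map_mul]
    exact mul_mem hx hy

/-- the bridge between the two models of the function field of `X₀(N)` over `L`. -/
theorem laurentBaseChange_full_eq (N : ℕ) [NeZero N] (L : Type*) [Field L] [Algebra ℚ L] :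
    laurentBaseChange L (modularFunctionFieldFull N) = modularFunctionFieldFullC L N := by
  apply le_antisymm
  · unfold laurentBaseChange
    rw [IntermediateField.adjoin_le_iff]
    rintro _ ⟨x, hx, rfl⟩
    exact coeffEmb_mem_fullC N L hx
  · unfold modularFunctionFieldFullC
    rw [IntermediateField.adjoin_le_iff]
    rintro _ ⟨d, hdne, hd, rfl⟩
    rw [← coeffEmb_qExpand_jq_all]
    exact coeffEmb_mem_laurentBaseChange L (jqd_mem_full N hd)

/-- **(R)** Riemann-Roch hypotheses over every algebraically closed field of characteristic 0. -/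
theorem isRRField_all (N : ℕ) [NeZero N] (L : Type*) [Field L] [Algebra ℚ L] [IsAlgClosed L] :
    IsRRField L (laurentBaseChange L (modularFunctionFieldFull N)) := by
  have h := Fermat.Agent.RRMod.isRRField_fullC' L N
  exact (congrArg (fun X : IntermediateField L (LaurentSeries L) => IsRRField L ↥X)
    (laurentBaseChange_full_eq N L)).mpr h

/-- the coordinate function `j` of `X₀(N)`. -/
def jCoord (N : ℕ) [NeZero N] : modularFunctionFieldFull N :=
  ⟨jq, by
    have h := jqd_mem_full (N := N) (d := 1) (one_dvd N)
    rwa [qExpand_one_apply] at h⟩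

theorem coeff_xOf_jCoord (N : ℕ) [NeZero N] (L : Type*) [Field L] [Algebra ℚ L] :
    ((xOf L (jCoord N) : laurentBaseChange L (modularFunctionFieldFull N)) :
      LaurentSeries L).coeff (-1) = 1 := by
  show (coeffEmb L jq).coeff (-1) = 1
  rw [coeffEmb_coeff, coeff_jq_neg_one, map_one]

/-- `j` has a pole. -/
theorem exists_pole_jCoord (N : ℕ) [NeZero N] (L : Type*) [Field L] [Algebra ℚ L]
    [IsAlgClosed L] :
    ∃ P : Place L (laurentBaseChange L (modularFunctionFieldFull N)),
      P.ord (xOf L (jCoord N)) < 0 := by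
  have hE : ∃ f : laurentBaseChange L (modularFunctionFieldFull N), ∃ n : ℤ, n < 0 ∧
      (f : LaurentSeries L).coeff n ≠ 0 :=
    ⟨xOf L (jCoord N), -1, by norm_num, by
      rw [coeff_xOf_jCoord]
      exact one_ne_zero⟩
  refine ⟨Fermat.Agent.S17.Setup.laurentPlace _ hE, ?_⟩
  apply Fermat.Agent.S24Res.ord_neg_of_not_mem
  intro hmem
  have h0 := (Fermat.Agent.S17.Setup.mem_laurentPlace_iff _ hE _).mp hmem (-1) (by norm_num)
  rw [coeff_xOf_jCoord] at h0
  exact one_ne_zero h0

end Fermat.Agent.Div
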