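import Fermat.Agent.Lib.Div.Main
import Fermat.Agent.Lib.Div.RRAll
import Fermat.Agent.F3.TorsFin.CharFinite
import Fermat.Agent.F3.I2.Descent.Final
import Fermat.Agent.S17.Interfaces

set_option autoImplicit false

/-!
# DIV for `J₀(N)`: `J₀(N)(ℚ̄)` is divisible (helper38)

Instance of `Fermat.Agent.Div.divisible_of_setup` with `Ω = ℂ`, `k = ℚ̄`,
`F₀ = modularFunctionFieldFull N`, `x₀ = j`.
-/

noncomputable section

namespace Fermat.Agent.Div

open ModularCurve HahnSeries AlgebraicCurve Fermat.Agent.RR Fermat.Agent.F3I2 Cardinal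

/-- **DIV**: `J₀(N)(ℚ̄)` is `n`-divisible for every `n > 0`. -/
theorem jZero_divisible (N : ℕ) [NeZero N] (n : ℕ) (hn : 0 < n) (y : JZero N) :
    ∃ w : JZero N, n • w = y := by
  letI : Algebra (AlgebraicClosure ℚ) ℂ := descAlgebraQbarC
  haveI : Algebra.IsAlgebraic ℚ (AlgebraicClosure ℚ) := AlgebraicClosure.isAlgebraic ℚ
  have hcard : ℵ₀ < #ℂ := by
    rw [Cardinal.mk_complex]
    exact Cardinal.aleph0_lt_continuum
  have hRR : ∀ S : Finset ℂ, IsRRField ↥(closField (S : Set ℂ))
      (laurentBaseChange ↥(closField (S : Set ℂ)) (modularFunctionFieldFull N)) := by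
    intro S
    haveI : IsAlgClosed ↥(closField (S : Set ℂ)) := closField_isAlgClosed _
    exact isRRField_all N _
  exact divisible_of_setup (Ω := ℂ) (k := AlgebraicClosure ℚ) hcard hRR
    (isRRField_all N (AlgebraicClosure ℚ)) (isRRField_all N ℂ) (jCoord N)
    (exists_pole_jCoord N ℂ) n hn (Fermat.Agent.F3TF.finite_torsion_FC hn.ne') y

/-- **Package DIV of S17.** -/
theorem jZeroTwoDivisible (N : ℕ) [NeZero N] : Fermat.Agent.S17.JZeroTwoDivisible N :=
  fun x => jZero_divisible N 2 (by norm_num) x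

end Fermat.Agent.Div
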