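/-
S17 / DIV (architect helper38), field-theory core of (L4), helper54.

* `exists_ringEquiv_extend` (FT1): every automorphism of a subfield `A` of an algebraically closed
  field `K'` extends to an automorphism of `K'`.
* `exists_algEquiv_of_minpoly_eq` (FT2): `Ω` algebraically closed, `L ⊆ Ω` any subfield,
  `r₁ r₂ ∈ Ω` algebraic over `L` with the same minimal polynomial: some `σ ∈ Aut(Ω/L)` maps
  `r₁` to `r₂`.
* `exists_algEquiv_of_root_irreducible` (FT3): the same for two roots of an irreducible polynomial.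

Proofs: a transcendence basis `B` of `K'/A`; `K'` is an algebraic closure of `A[B]`, and the
automorphism extends to `A[B]` (on coefficients), then to `K'` (`IsAlgClosure.equivOfEquiv`).
For (FT2): the algebraic closure `A` of `L` in `Ω` is normal over `L`
(`minpoly.exists_algEquiv_of_root`), then (FT1).
-/
import Mathlib

set_option autoImplicit false

noncomputable section

namespace Fermat.Agent.Div

open MvPolynomial

/-- **(FT1)** every automorphism of a subfield of an algebraically closed field extends. -/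
theorem exists_ringEquiv_extend {A K' : Type*} [Field A] [Field K'] [Algebra A K']
    [IsAlgClosed K'] (s : A ≃+* A) :
    ∃ σ : K' ≃+* K', ∀ a : A, σ (algebraMap A K' a) = algebraMap A K' (s a) := by
  classical
  obtain ⟨B, hB⟩ := exists_isTranscendenceBasis A K'
  let e0 : MvPolynomial B A ≃+* MvPolynomial B A := MvPolynomial.mapEquiv B s
  let e : Algebra.adjoin A (Set.range ((↑) : B → K')) ≃+*
      Algebra.adjoin A (Set.range ((↑) : B → K')) :=
    (hB.1.aevalEquiv.symm.toRingEquiv.trans e0).trans hB.1.aevalEquiv.toRingEquiv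
  have := IsAlgClosed.isAlgClosure_of_transcendence_basis _ hB
  refine ⟨IsAlgClosure.equivOfEquiv K' K' e, fun a => ?_⟩
  have h1 : ∀ b : A, algebraMap A K' b =
      algebraMap (Algebra.adjoin A (Set.range ((↑) : B → K'))) K' (algebraMap A _ b) :=
    fun _ => rfl
  rw [h1, IsAlgClosure.equivOfEquiv_algebraMap, h1]
  congr 1
  show hB.1.aevalEquiv (e0 (hB.1.aevalEquiv.symm (algebraMap A _ a))) = _
  rw [AlgEquiv.commutes]
  have h3 : e0 (algebraMap A (MvPolynomial B A) a) = algebraMap A (MvPolynomial B A) (s a) := by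
    show MvPolynomial.map (s : A →+* A) (C a) = C (s a)
    rw [MvPolynomial.map_C]
    rfl
  rw [h3, AlgEquiv.commutes]

/-- **(FT2)** two elements of an algebraically closed field `Ω` with the same minimal polynomial
over a subfield `L` are conjugate under `Aut(Ω/L)`. -/
theorem exists_algEquiv_of_minpoly_eq {L Ω : Type*} [Field L] [Field Ω] [Algebra L Ω]
    [IsAlgClosed Ω] {r₁ r₂ : Ω} (h₁ : IsIntegral L r₁) (h : minpoly L r₁ = minpoly L r₂) :
    ∃ σ : Ω ≃ₐ[L] Ω, σ r₁ = r₂ := by
  have h₂ : IsIntegral L r₂ := by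
    by_contra hcon
    have h0 := minpoly.eq_zero hcon
    rw [← h] at h0
    exact minpoly.ne_zero h₁ h0
  let A : IntermediateField L Ω := algebraicClosure L Ω
  have hr₁ : r₁ ∈ A := (mem_algebraicClosure_iff).mpr h₁.isAlgebraic
  have hr₂ : r₂ ∈ A := (mem_algebraicClosure_iff).mpr h₂.isAlgebraic
  have hy : IsAlgebraic L (⟨r₂, hr₂⟩ : A) := Algebra.IsAlgebraic.isAlgebraic _
  have hmin : ∀ (r : Ω) (hr : r ∈ A), minpoly L (⟨r, hr⟩ : A) = minpoly L r := fun r hr =>
    (minpoly.algebraMap_eq (algebraMap A Ω).injective (⟨r, hr⟩ : A)).symm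
  have hev : Polynomial.aeval (⟨r₁, hr₁⟩ : A) (minpoly L (⟨r₂, hr₂⟩ : A)) = 0 := by
    rw [hmin r₂ hr₂, ← h, ← hmin r₁ hr₁]
    exact minpoly.aeval L _
  obtain ⟨s, hs⟩ := minpoly.exists_algEquiv_of_root hy hev
  obtain ⟨σ, hσ⟩ := exists_ringEquiv_extend (A := A) (K' := Ω) s.toRingEquiv
  refine ⟨AlgEquiv.ofRingEquiv (f := σ) (fun x => ?_), ?_⟩
  · have h1 : algebraMap L Ω x = algebraMap A Ω (algebraMap L A x) := rfl
    rw [h1, hσ]
    congr 1
    exact s.commutes x
  · have h1 : r₁ = algebraMap A Ω (⟨r₁, hr₁⟩ : A) := rfl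
    show σ r₁ = r₂
    rw [h1, hσ]
    show algebraMap A Ω (s ⟨r₁, hr₁⟩) = r₂
    rw [hs]
    rfl

/-- **(FT3)** two roots in `Ω` of an irreducible polynomial over `L` are conjugate under
`Aut(Ω/L)`. -/
theorem exists_algEquiv_of_root_irreducible {L Ω : Type*} [Field L] [Field Ω] [Algebra L Ω]
    [IsAlgClosed Ω] {p : Polynomial L} (hp : Irreducible p) {r₁ r₂ : Ω}
    (h₁ : Polynomial.aeval r₁ p = 0) (h₂ : Polynomial.aeval r₂ p = 0) :
    ∃ σ : Ω ≃ₐ[L] Ω, σ r₁ = r₂ := by
  have hp0 : p ≠ 0 := hp.ne_zero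
  have hi₁ : IsIntegral L r₁ := (IsAlgebraic.isIntegral ⟨p, hp0, h₁⟩)
  have e₁ := minpoly.eq_of_irreducible hp h₁
  have e₂ := minpoly.eq_of_irreducible hp h₂
  exact exists_algEquiv_of_minpoly_eq hi₁ (e₁.symm.trans e₂)

end Fermat.Agent.Div
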