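import Fermat.Agent.Lib.Div.Defs

set_option autoImplicit false

/-!
# DIV, work package A (pure field theory; no function fields)

Automorphisms of an uncountable algebraically closed field `Ω` of characteristic `0` and the
subfields `closField S` (algebraic closure of `ℚ(S)` in `Ω`).  Tools on main:
`Fermat.Agent.F3I2.exists_aut_translate`, `mem_range_of_finite_orbit` (F3/I2/Descent/AutC.lean),
Mathlib `IsAlgClosed.isAlgClosure_of_transcendence_basis`, `IsAlgClosure.equivOfEquiv`,
`IsAlgClosed.cardinal_eq_cardinal_transcendence_basis_of_aleph0_lt`, `Algebra.trdeg`.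

Proofs: helper64.
-/

noncomputable section

namespace Fermat.Agent.Div

open Cardinal

/-- two algebraically closed extensions of a countable field with the same uncountable
cardinality are isomorphic over the base. -/
theorem exists_ringEquiv_of_card_eq {L K₁ K₂ : Type} [Field L] [Field K₁] [Field K₂]
    [Algebra L K₁] [Algebra L K₂] [IsAlgClosed K₁] [IsAlgClosed K₂] [Countable L]
    (h1 : ℵ₀ < #K₁) (h12 : #K₁ = #K₂) :
    ∃ σ : K₁ ≃+* K₂, ∀ x : L, σ (algebraMap L K₁ x) = algebraMap L K₂ x := by
  classical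
  obtain ⟨s₁, hs₁⟩ := exists_isTranscendenceBasis L K₁
  obtain ⟨s₂, hs₂⟩ := exists_isTranscendenceBasis L K₂
  have hL : #L ≤ ℵ₀ := Cardinal.mk_le_aleph0
  have c1 : #K₁ = #s₁ := by
    simpa using IsAlgClosed.cardinal_eq_cardinal_transcendence_basis_of_aleph0_lt _ hs₁ hL h1
  have c2 : #K₂ = #s₂ := by
    simpa using
      IsAlgClosed.cardinal_eq_cardinal_transcendence_basis_of_aleph0_lt _ hs₂ hL (h12 ▸ h1)
  have hcard : #s₁ = #s₂ := by rw [← c1, ← c2, h12]
  obtain ⟨e⟩ := Cardinal.eq.mp hcard
  let E : Algebra.adjoin L (Set.range ((↑) : s₁ → K₁)) ≃ₐ[L]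
      Algebra.adjoin L (Set.range ((↑) : s₂ → K₂)) :=
    hs₁.1.aevalEquiv.symm.trans ((MvPolynomial.renameEquiv L e).trans hs₂.1.aevalEquiv)
  have i1 := IsAlgClosed.isAlgClosure_of_transcendence_basis _ hs₁
  have i2 := IsAlgClosed.isAlgClosure_of_transcendence_basis _ hs₂
  refine ⟨IsAlgClosure.equivOfEquiv K₁ K₂ E.toRingEquiv, ?_⟩
  intro a
  have h1 : algebraMap L K₁ a = algebraMap (Algebra.adjoin L (Set.range ((↑) : s₁ → K₁))) K₁
      (algebraMap L _ a) := rfl
  rw [h1, IsAlgClosure.equivOfEquiv_algebraMap]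
  have h2 : E.toRingEquiv (algebraMap L _ a) = algebraMap L _ a := E.commutes a
  rw [h2]
  rfl

/-- **(A1)** two embeddings of a countable field in an uncountable algebraically closed field are
conjugate under an automorphism.  (Transcendence bases of `Ω` over `φ₁ L` and over `φ₂ L` have
cardinality `#Ω`; `Ω` is an algebraic closure of `L[B]` in two ways.) -/
theorem exists_ringEquiv_of_embeddings {L Ω : Type} [Field L] [Field Ω] [IsAlgClosed Ω]
    [Countable L] (hΩ : ℵ₀ < #Ω) (φ₁ φ₂ : L →+* Ω) :
    ∃ σ : Ω ≃+* Ω, ∀ x, σ (φ₁ x) = φ₂ x :=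
  @exists_ringEquiv_of_card_eq L Ω Ω _ _ _ φ₁.toAlgebra φ₂.toAlgebra _ _ _ hΩ rfl

section

variable {Ω : Type*} [Field Ω]

/-- transfer of algebraicity along a ring homomorphism of base fields which is compatible with
the structure maps. -/
theorem isAlgebraic_of_ringHom_comp {A B : Type*} [Field A] [Field B] [Algebra A Ω]
    [Algebra B Ω] (f : A →+* B) (hf : (algebraMap B Ω).comp f = algebraMap A Ω) {a : Ω}
    (ha : IsAlgebraic A a) : IsAlgebraic B a := by
  obtain ⟨p, hp0, hpa⟩ := ha
  refine ⟨p.map f, (Polynomial.map_ne_zero_iff f.injective).mpr hp0, ?_⟩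
  rw [Polynomial.aeval_def, Polynomial.eval₂_map, hf, ← Polynomial.aeval_def]
  exact hpa

theorem isAlgebraic_subfield_mono {K₁ K₂ : Subfield Ω} (h : K₁ ≤ K₂) {a : Ω}
    (ha : IsAlgebraic K₁ a) : IsAlgebraic K₂ a :=
  isAlgebraic_of_ringHom_comp (Subfield.inclusion h) rfl ha

/-- **(A2)** `closField S` is algebraically closed. -/
theorem closField_isAlgClosed [IsAlgClosed Ω] (S : Set Ω) : IsAlgClosed ↥(closField S) := by
  have h : IsAlgClosed ↥(algebraicClosure ↥(Subfield.closure S) Ω) :=
    IsAlgClosure.isAlgClosed ↥(Subfield.closure S)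
  exact h

theorem subset_closField (S : Set Ω) : S ⊆ closField S := by
  intro a ha
  rw [SetLike.mem_coe, mem_closField]
  exact isAlgebraic_algebraMap (⟨a, Subfield.subset_closure ha⟩ : ↥(Subfield.closure S))

theorem closField_mono {S T : Set Ω} (h : S ⊆ T) : closField S ≤ closField T := by
  intro a ha
  rw [mem_closField] at ha ⊢
  exact isAlgebraic_subfield_mono (Subfield.closure_mono h) ha

/-- the prime field maps into every subfield. -/
def ratToSubfield [Algebra ℚ Ω] (K : Subfield Ω) : ℚ →+* ↥K :=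
  (algebraMap ℚ Ω).codRestrict K (fun q => by
    rw [eq_ratCast (algebraMap ℚ Ω) q]
    exact SubfieldClass.ratCast_mem K q)

/-- elements algebraic over the prime field lie in every `closField S`. -/
theorem mem_closField_of_isAlgebraic [Algebra ℚ Ω] {a : Ω} (ha : IsAlgebraic ℚ a) (S : Set Ω) :
    a ∈ closField S := by
  rw [mem_closField]
  exact isAlgebraic_of_ringHom_comp (ratToSubfield (Subfield.closure S)) rfl ha

theorem countable_closField [CharZero Ω] (S : Set Ω) (hS : S.Countable) :
    Countable ↥(closField S) := by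
  have h1 : #↥(Subfield.closure S) ≤ ℵ₀ := by
    refine (Subfield.cardinalMk_closure_le_max S).trans ?_
    exact max_le (Cardinal.mk_le_aleph0_iff.mpr hS.to_subtype) le_rfl
  have h2 : #↥(algebraicClosure ↥(Subfield.closure S) Ω) ≤ max #↥(Subfield.closure S) ℵ₀ :=
    Algebra.IsAlgebraic.cardinalMk_le_max _ _
  have h3 : #↥(algebraicClosure ↥(Subfield.closure S) Ω) ≤ ℵ₀ := h2.trans (max_le h1 le_rfl)
  exact Cardinal.mk_le_aleph0_iff.mp h3

/-- `Aut(Ω / closField T) ≤ Aut(Ω / closField S)` for `S ⊆ T`. -/
theorem galOver_anti [Algebra ℚ Ω] {S T : Set Ω} (h : S ⊆ T) :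
    galOver (Ω := Ω) T ≤ galOver S := by
  intro σ hσ
  rw [mem_galOver] at hσ ⊢
  intro a ha
  exact hσ a (closField_mono h ha)

/-! ### Bridge: `Subfield.closure S` versus `Algebra.adjoin ℚ S` -/

theorem closure_eq_adjoin_toSubfield [Algebra ℚ Ω] (S : Set Ω) :
    Subfield.closure S = (IntermediateField.adjoin ℚ S).toSubfield := by
  rw [IntermediateField.adjoin_toSubfield]
  apply le_antisymm
  · exact Subfield.closure_mono Set.subset_union_right
  · rw [Subfield.closure_le]
    rintro x (⟨q, rfl⟩ | hx)
    · rw [eq_ratCast (algebraMap ℚ Ω) q]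
      exact SubfieldClass.ratCast_mem _ q
    · exact Subfield.subset_closure hx

/-- membership in `closField S` is algebraicity over the subalgebra generated by `S`. -/
theorem mem_closField_iff_adjoin [Algebra ℚ Ω] {S : Set Ω} {a : Ω} :
    a ∈ closField S ↔ IsAlgebraic ↥(Algebra.adjoin ℚ S) a := by
  rw [mem_closField, ← IntermediateField.isAlgebraic_adjoin_iff]
  have hle : Subfield.closure S ≤ (IntermediateField.adjoin ℚ S).toSubfield :=
    (closure_eq_adjoin_toSubfield S).le
  have hge : (IntermediateField.adjoin ℚ S).toSubfield ≤ Subfield.closure S :=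
    (closure_eq_adjoin_toSubfield S).ge
  constructor
  · intro h
    exact isAlgebraic_of_ringHom_comp
      (A := ↥(Subfield.closure S)) (B := ↥(IntermediateField.adjoin ℚ S))
      (Subfield.inclusion hle) rfl h
  · intro h
    exact isAlgebraic_of_ringHom_comp
      (A := ↥(IntermediateField.adjoin ℚ S)) (B := ↥(Subfield.closure S))
      (Subfield.inclusion hge) rfl h

theorem closField_eq_matroid_closure [Algebra ℚ Ω] [CharZero Ω] (S : Set Ω) :
    (closField S : Set Ω) = (AlgebraicIndependent.matroid ℚ Ω).closure S := by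
  rw [AlgebraicIndependent.matroid_closure_eq]
  ext a
  rw [SetLike.mem_coe, mem_closField_iff_adjoin, SetLike.mem_coe,
    Subalgebra.mem_algebraicClosure]

/-- **(A3)** counting: `g` algebraically independent elements that are algebraic over the field
generated by a set `S` of at most `g` elements: then `S` has exactly `g` elements and is
algebraically independent. -/
theorem algebraicIndependent_of_mem_closField [Algebra ℚ Ω] [CharZero Ω] {g : ℕ} (c : Fin g → Ω)
    (hc : AlgebraicIndependent ℚ c) (S : Finset Ω) (hS : S.card ≤ g)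
    (hcS : ∀ i, c i ∈ closField (S : Set Ω)) :
    S.card = g ∧ AlgebraicIndependent ℚ (fun a : (S : Set Ω) => (a : Ω)) := by
  classical
  set M := AlgebraicIndependent.matroid ℚ Ω with hM
  have hsub : Set.range c ⊆ M.closure (S : Set Ω) := by
    rintro _ ⟨i, rfl⟩
    rw [hM, ← closField_eq_matroid_closure]
    exact hcS i
  have hind : M.Indep (Set.range c) :=
    AlgebraicIndependent.matroid_indep_iff.mpr hc.to_subtype_range
  have hcard : (Set.range c).encard = g := by
    rw [← Set.image_univ, hc.injective.encard_image, Set.encard_univ]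
    simp
  have h1 : (g : ℕ∞) ≤ M.eRk (S : Set Ω) := by
    rw [← hcard, ← M.eRk_closure_eq]
    exact hind.encard_le_eRk_of_subset hsub
  have h2 : M.eRk (S : Set Ω) ≤ (S.card : ℕ∞) := by
    have := M.eRk_le_encard (S : Set Ω)
    rwa [Set.encard_coe_eq_coe_finsetCard] at this
  have h3 : (g : ℕ∞) ≤ (S.card : ℕ∞) := h1.trans h2
  have h4 : g ≤ S.card := by exact_mod_cast h3
  have h5 : S.card = g := le_antisymm hS h4
  refine ⟨h5, ?_⟩
  have h6 : M.eRk (S : Set Ω) = (S : Set Ω).encard := by
    rw [Set.encard_coe_eq_coe_finsetCard]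
    apply le_antisymm h2
    rw [h5]
    exact h1
  have h7 : M.Indep (S : Set Ω) :=
    (Matroid.indep_iff_eRk_eq_encard_of_finite S.finite_toSet).mpr h6
  exact AlgebraicIndependent.matroid_indep_iff.mp h7

/-- **(A4)** an element outside `closField S` is translated by the automorphisms over it. -/
theorem exists_galOver_translate [Algebra ℚ Ω] [IsAlgClosed Ω] [CharZero Ω] (S : Set Ω) {c : Ω}
    (hc : c ∉ closField S) (n : ℕ) : ∃ σ ∈ galOver (Ω := Ω) S, σ c = c + n := by
  have hK : IsAlgClosed ↥(closField S) := closField_isAlgClosed S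
  have hc' : c ∉ Set.range (closField S).subtype := by
    rintro ⟨a, rfl⟩
    exact hc a.2
  obtain ⟨σ, hσ, hσc⟩ := Fermat.Agent.F3I2.exists_aut_translate (closField S).subtype c hc' n
  refine ⟨Fermat.Agent.F3I2.descRatAlgEquiv Ω σ, ?_, ?_⟩
  · rw [mem_galOver]
    intro a ha
    exact hσ ⟨a, ha⟩
  · exact hσc

/-- **(A5)** an element with finite orbit under `Aut(Ω / closField S)` lies in `closField S`. -/
theorem mem_closField_of_finite_orbit [Algebra ℚ Ω] [IsAlgClosed Ω] [CharZero Ω] (S : Set Ω)
    (c : Ω) (h : {y : Ω | ∃ σ ∈ galOver (Ω := Ω) S, σ c = y}.Finite) : c ∈ closField S := by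
  by_contra hc
  have hinj : Function.Injective (fun n : ℕ => c + (n : Ω)) := by
    intro a b hab
    have : (a : Ω) = (b : Ω) := add_left_cancel hab
    exact_mod_cast this
  have hsub : Set.range (fun n : ℕ => c + (n : Ω)) ⊆
      {y : Ω | ∃ σ ∈ galOver (Ω := Ω) S, σ c = y} := by
    rintro _ ⟨n, rfl⟩
    exact exists_galOver_translate S hc n
  exact (Set.infinite_range_of_injective hinj) (h.subset hsub)

/-- **(A7)** in an algebraically independent family no member is algebraic over the others. -/
theorem not_mem_closField_of_algebraicIndependent [Algebra ℚ Ω] [CharZero Ω] {g : ℕ}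
    (c : Fin g → Ω) (hc : AlgebraicIndependent ℚ c) (i : Fin g) :
    c i ∉ closField (c '' {j | j ≠ i}) := by
  rw [mem_closField_iff_adjoin]
  have hi : i ∉ {j : Fin g | j ≠ i} := by simp
  exact hc.transcendental_adjoin hi

end

/-- **(A6)** an uncountable field of characteristic `0` contains algebraically independent
families of every finite length. -/
theorem exists_algebraicIndependent {Ω : Type} [Field Ω] [Algebra ℚ Ω] [CharZero Ω]
    (hΩ : ℵ₀ < #Ω) (g : ℕ) : ∃ c : Fin g → Ω, AlgebraicIndependent ℚ c := by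
  classical
  obtain ⟨s, hs⟩ := exists_isTranscendenceBasis ℚ Ω
  have hinf : Infinite ↥s := by
    by_contra hfin
    rw [not_infinite_iff_finite] at hfin
    have hle : #Ω ≤ ℵ₀ := by
      rcases isEmpty_or_nonempty ↥s with he | hne
      · have halg : Algebra.IsAlgebraic ℚ Ω := hs.isEmpty_iff_isAlgebraic.mp he
        exact (Algebra.IsAlgebraic.cardinalMk_le_max ℚ Ω).trans (max_le Cardinal.mk_le_aleph0 le_rfl)
      · have h := hs.lift_cardinalMk_eq_max_lift
        simp only [Cardinal.lift_id] at h
        rw [h]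
        exact max_le (max_le Cardinal.mk_le_aleph0 Cardinal.mk_le_aleph0) le_rfl
    exact absurd hΩ (not_lt.mpr hle)
  let f : Fin g → ↥s := fun i => Infinite.natEmbedding ↥s i.val
  have hf : Function.Injective f := fun a b hab =>
    Fin.val_injective ((Infinite.natEmbedding ↥s).injective hab)
  exact ⟨fun i => (f i : Ω), hs.1.comp f hf⟩

end Fermat.Agent.Div
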