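import Fermat.Agent.Lib.Div.Defs
import Fermat.Agent.Lib.Div.FieldExt

set_option autoImplicit false
set_option linter.style.haveILetI false

/-!
# DIV, work package B: fibres of the coordinate function on the places of `F_Ω`

`x = xOf Ω x₀`.  Everything follows from `divOf hΩ (x - c)` (finite support, degree `0`),
`Fermat.Agent.S17.Pts` (values, equivariance) and `arithmeticGalois F₀ σ • x = x`.
-/

noncomputable section

namespace Fermat.Agent.Div

open ModularCurve HahnSeries AlgebraicCurve Fermat.Agent.RR Fermat.Agent.F3I2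

variable {Ω : Type*} [Field Ω] [Algebra ℚ Ω]
variable {F₀ : IntermediateField ℚ (LaurentSeries ℚ)}

/-- the coordinate function is fixed by the Galois action. -/
theorem smul_xOf (x₀ : F₀) (σ : Ω ≃ₐ[ℚ] Ω) :
    arithmeticGalois F₀ σ • xOf Ω x₀ = xOf Ω x₀ :=
  Subtype.ext ((coe_arithmeticGalois_smul F₀ σ (xOf Ω x₀)).trans
    (coeffMap_coeffEmb σ (x₀ : LaurentSeries ℚ)))

/-- `Over` as a congruence. -/
theorem Over.congAt {x₀ : F₀} {P : Place Ω (laurentBaseChange Ω F₀)} {c : Ω}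
    (h : Over x₀ P c) : Fermat.Agent.S17.Pts.CongAt P (xOf Ω x₀) c :=
  Or.inr h

/-- a function with a pole is not a constant. -/
theorem fibre_ne_const {P : Place Ω (laurentBaseChange Ω F₀)} {f : laurentBaseChange Ω F₀}
    (hP : P.ord f < 0) (c : Ω) : f - algebraMap Ω (laurentBaseChange Ω F₀) c ≠ 0 := by
  intro h
  rw [sub_eq_zero.mp h, Fermat.Agent.S24Res.ord_algebraMap] at hP
  exact lt_irrefl _ hP

/-- a pole of `f` is a pole of `f - c`. -/
theorem fibre_ord_sub_neg {P : Place Ω (laurentBaseChange Ω F₀)} {f : laurentBaseChange Ω F₀}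
    (hP : P.ord f < 0) (c : Ω) : P.ord (f - algebraMap Ω (laurentBaseChange Ω F₀) c) < 0 := by
  by_contra h
  have h1 : f - algebraMap Ω (laurentBaseChange Ω F₀) c ∈ P.toValuationSubring :=
    Fermat.Agent.S24Res.mem_of_ord_nonneg P (not_lt.mp h)
  have h2 := add_mem h1 (P.algebraMap_mem' c)
  rw [sub_add_cancel] at h2
  have := Fermat.Agent.S24Res.ord_nonneg_of_mem P h2
  omega

/-- **(B1)** the fibres are finite. -/
theorem finite_over (hΩ : IsRRField Ω (laurentBaseChange Ω F₀)) (x₀ : F₀) (c : Ω) :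
    {P : Place Ω (laurentBaseChange Ω F₀) | Over x₀ P c}.Finite :=
  Fermat.Agent.RR.finite_zeros hΩ (xOf Ω x₀ - algebraMap Ω (laurentBaseChange Ω F₀) c)

/-- **(B3)** the coordinate function has finitely many poles. -/
theorem finite_poles (hΩ : IsRRField Ω (laurentBaseChange Ω F₀)) (x₀ : F₀) :
    {P : Place Ω (laurentBaseChange Ω F₀) | P.ord (xOf Ω x₀) < 0}.Finite :=
  Fermat.Agent.RR.finite_poles hΩ (xOf Ω x₀)

/-- **(B2)** the fibres are nonempty (the coordinate function has a pole, so `x - c` has a zero). -/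
theorem exists_over (hΩ : IsRRField Ω (laurentBaseChange Ω F₀)) (x₀ : F₀)
    (hx : ∃ P : Place Ω (laurentBaseChange Ω F₀), P.ord (xOf Ω x₀) < 0) (c : Ω) :
    ∃ P : Place Ω (laurentBaseChange Ω F₀), Over x₀ P c := by
  obtain ⟨P₀, hP₀⟩ := hx
  set f := xOf Ω x₀ - algebraMap Ω (laurentBaseChange Ω F₀) c with hf
  have hneg : P₀.ord f < 0 := fibre_ord_sub_neg hP₀ c
  by_contra hcon
  have hle : ∀ v : Place Ω (laurentBaseChange Ω F₀), v.ord f ≤ 0 := fun v => by
    by_contra h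
    exact hcon ⟨v, not_le.mp h⟩
  have hdeg := degree_divOf hΩ f
  rw [degree_eq_sum hΩ] at hdeg
  have hmem : P₀ ∈ (divOf hΩ f).support := by
    rw [Finsupp.mem_support_iff, divOf_apply]
    exact ne_of_lt hneg
  have hlt : ∑ v ∈ (divOf hΩ f).support, (divOf hΩ f) v < 0 := by
    refine Finset.sum_neg' (fun v _ => ?_) ⟨P₀, hmem, ?_⟩
    · rw [divOf_apply]; exact hle v
    · rw [divOf_apply]; exact hneg
  rw [hdeg] at hlt
  exact lt_irrefl _ hlt

/-- **(B5)** every place is a pole of `x` or lies over a value. -/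
theorem pole_or_over (hΩ : IsRRField Ω (laurentBaseChange Ω F₀)) (x₀ : F₀)
    (hx : ∃ P : Place Ω (laurentBaseChange Ω F₀), P.ord (xOf Ω x₀) < 0)
    (P : Place Ω (laurentBaseChange Ω F₀)) :
    P.ord (xOf Ω x₀) < 0 ∨ ∃ c : Ω, Over x₀ P c := by
  by_cases hP : P.ord (xOf Ω x₀) < 0
  · exact Or.inl hP
  · right
    obtain ⟨c, hc⟩ := exists_const_sub hΩ P (not_lt.mp hP)
    rcases hc with hc | hc
    · exfalso
      obtain ⟨P₀, hP₀⟩ := hx
      exact fibre_ne_const hP₀ c (sub_eq_zero.mpr hc)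
    · exact ⟨c, hc⟩

theorem not_pole_of_over (x₀ : F₀) {P : Place Ω (laurentBaseChange Ω F₀)} {c : Ω}
    (h : Over x₀ P c) : 0 ≤ P.ord (xOf Ω x₀) :=
  h.congAt.ord_nonneg

theorem over_unique (x₀ : F₀) {P : Place Ω (laurentBaseChange Ω F₀)} {c c' : Ω}
    (h : Over x₀ P c) (h' : Over x₀ P c') : c = c' :=
  h.congAt.unique h'.congAt

/-- **(B4)** equivariance. -/
theorem over_smul (x₀ : F₀) (σ : Ω ≃ₐ[ℚ] Ω) {P : Place Ω (laurentBaseChange Ω F₀)} {c : Ω}
    (h : Over x₀ P c) : Over x₀ (arithmeticGalois F₀ σ • P) (σ c) := by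
  unfold Over at h ⊢
  have h1 : xOf Ω x₀ - algebraMap Ω (laurentBaseChange Ω F₀) (σ c)
      = arithmeticGalois F₀ σ • (xOf Ω x₀ - algebraMap Ω (laurentBaseChange Ω F₀) c) := by
    rw [smul_sub, smul_xOf, SemilinearAut.smul_algebraMap]
    rfl
  rw [h1, SemilinearAut.ord_smul]
  exact h

theorem pole_smul (x₀ : F₀) (σ : Ω ≃ₐ[ℚ] Ω) {P : Place Ω (laurentBaseChange Ω F₀)}
    (h : P.ord (xOf Ω x₀) < 0) : (arithmeticGalois F₀ σ • P).ord (xOf Ω x₀) < 0 := by
  rw [Fermat.Agent.S17.Pts.ord_smul_of_fixed _ _ (smul_xOf x₀ σ)]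
  exact h

/-- **(B6)** a place over a value in `closField S` has finite orbit under `Aut(Ω / closField S)`;
so has a pole of `x`. -/
theorem finite_orbit_of_over (hΩ : IsRRField Ω (laurentBaseChange Ω F₀)) (x₀ : F₀) (S : Set Ω)
    {P : Place Ω (laurentBaseChange Ω F₀)} {c : Ω} (h : Over x₀ P c) (hc : c ∈ closField S) :
    (orbitOf F₀ (galOver S) P).Finite := by
  refine (finite_over hΩ x₀ c).subset ?_
  rintro _ ⟨σ, hσ, rfl⟩
  have := over_smul x₀ σ h
  rwa [mem_galOver.mp hσ c hc] at this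

theorem finite_orbit_of_pole (hΩ : IsRRField Ω (laurentBaseChange Ω F₀)) (x₀ : F₀)
    (H : Subgroup (Ω ≃ₐ[ℚ] Ω)) {P : Place Ω (laurentBaseChange Ω F₀)}
    (h : P.ord (xOf Ω x₀) < 0) : (orbitOf F₀ H P).Finite := by
  refine (finite_poles hΩ x₀).subset ?_
  rintro _ ⟨σ, -, rfl⟩
  exact pole_smul x₀ σ h

/-- a function factoring through a map to a finite type has finite range. -/
theorem fibre_finite_range_of_factors {α β γ : Type*} [Finite γ] (o : α → β) (r : α → γ)
    (hr : ∀ a b, r a = r b → o a = o b) : (Set.range o).Finite := by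
  classical
  have hfin : (Set.range fun x : Set.range r => o x.2.choose).Finite := Set.finite_range _
  refine hfin.subset ?_
  rintro _ ⟨a, rfl⟩
  refine ⟨⟨r a, a, rfl⟩, ?_⟩
  exact hr _ _ (Exists.choose_spec (⟨a, rfl⟩ : ∃ b, r b = r a))

/-- **(B7)** a divisor all of whose points have finite orbit has finite orbit. -/
theorem finite_orbit_divisor (H : Subgroup (Ω ≃ₐ[ℚ] Ω))
    (D : Divisor Ω (laurentBaseChange Ω F₀))
    (h : ∀ P ∈ D.support, (orbitOf F₀ H P).Finite) : (orbitOf F₀ H D).Finite := by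
  classical
  -- the orbit is the range of `σ ↦ σ • D`, which factors through the finite product of orbits
  haveI : ∀ P : D.support, Finite (orbitOf F₀ H (P : Place Ω (laurentBaseChange Ω F₀))) :=
    fun P => (h P P.2).to_subtype
  let r : H → (∀ P : D.support, orbitOf F₀ H (P : Place Ω (laurentBaseChange Ω F₀))) :=
    fun σ P => ⟨arithmeticGalois F₀ (σ : Ω ≃ₐ[ℚ] Ω) • (P : Place Ω (laurentBaseChange Ω F₀)),
      σ, σ.2, rfl⟩
  let o : H → Divisor Ω (laurentBaseChange Ω F₀) :=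
    fun σ => arithmeticGalois F₀ (σ : Ω ≃ₐ[ℚ] Ω) • D
  have hfac : ∀ a b, r a = r b → o a = o b := by
    intro a b hab
    have hP : ∀ P ∈ D.support, arithmeticGalois F₀ (a : Ω ≃ₐ[ℚ] Ω) • P
        = arithmeticGalois F₀ (b : Ω ≃ₐ[ℚ] Ω) • P := fun P hP => by
      have := congrArg (fun f => ((f ⟨P, hP⟩ : orbitOf F₀ H P) :
        Place Ω (laurentBaseChange Ω F₀))) hab
      exact this
    show arithmeticGalois F₀ (a : Ω ≃ₐ[ℚ] Ω) • D = arithmeticGalois F₀ (b : Ω ≃ₐ[ℚ] Ω) • D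
    rw [SemilinearAut.divisor_smul_def, SemilinearAut.divisor_smul_def]
    rw [Finsupp.mapDomain, Finsupp.mapDomain]
    refine Finset.sum_congr rfl fun Q hQ => ?_
    show Finsupp.single (arithmeticGalois F₀ (a : Ω ≃ₐ[ℚ] Ω) • Q) (D Q)
      = Finsupp.single (arithmeticGalois F₀ (b : Ω ≃ₐ[ℚ] Ω) • Q) (D Q)
    rw [hP Q hQ]
  refine (fibre_finite_range_of_factors o r hfac).subset ?_
  rintro _ ⟨σ, hσ, rfl⟩
  exact ⟨⟨σ, hσ⟩, rfl⟩

/-- **(B8)** the points of a divisor with finite orbit have finite orbit. -/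
theorem finite_orbit_of_mem_support (H : Subgroup (Ω ≃ₐ[ℚ] Ω))
    (D : Divisor Ω (laurentBaseChange Ω F₀)) (h : (orbitOf F₀ H D).Finite)
    {P : Place Ω (laurentBaseChange Ω F₀)} (hP : P ∈ D.support) : (orbitOf F₀ H P).Finite := by
  refine (h.biUnion (t := fun E => ((E.support : Finset _) : Set _))
    (fun E _ => E.support.finite_toSet)).subset ?_
  rintro _ ⟨σ, hσ, rfl⟩
  refine Set.mem_biUnion (⟨σ, hσ, rfl⟩ : arithmeticGalois F₀ σ • D ∈ orbitOf F₀ H D) ?_
  rw [Finset.mem_coe, Finsupp.mem_support_iff, SemilinearAut.divisor_smul_apply_smul]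
  exact Finsupp.mem_support_iff.mp hP

/-- **(B9)** if `P` lies over `c` and has finite orbit under `Aut(Ω / closField S)`, then
`c ∈ closField S`. -/
theorem mem_closField_of_finite_orbit_place [IsAlgClosed Ω] [CharZero Ω] (x₀ : F₀) (S : Set Ω)
    {P : Place Ω (laurentBaseChange Ω F₀)} {c : Ω} (h : Over x₀ P c)
    (hfin : (orbitOf F₀ (galOver S) P).Finite) : c ∈ closField S := by
  refine mem_closField_of_finite_orbit S c ?_
  refine (hfin.image (fun Q => Fermat.Agent.S17.Pts.ev Q (xOf Ω x₀))).subset ?_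
  rintro _ ⟨σ, hσ, rfl⟩
  refine ⟨arithmeticGalois F₀ σ • P, ⟨σ, hσ, rfl⟩, ?_⟩
  exact Fermat.Agent.S17.Pts.ev_eq_of_congAt (over_smul x₀ σ h).congAt

end Fermat.Agent.Div
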