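import Fermat.Agent.Lib.Div.Gen
import Fermat.Agent.Lib.Div.FieldExt

set_option autoImplicit false
set_option linter.style.haveILetI false

/-!
# DIV, work package E2 (helper22): generic places are conjugate

Proof of `exists_descGal_smul_eq` (stub in `Gen.lean`) from (A1) `exists_ringEquiv_of_embeddings`
and (E1) `eq_of_genEval_eq`, `isGen_smul`, `genEval_smul`; plus the countability of a function
field over a countable constant field.
-/

noncomputable section

namespace Fermat.Agent.Div

open ModularCurve HahnSeries AlgebraicCurve Fermat.Agent.RR Fermat.Agent.F3I2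
open Fermat.Agent.S17 Cardinal IntermediateField

/-- a function field in the sense of `IsRRField` over a countable field is countable. -/
theorem countable_of_isRRField {K F : Type} [Field K] [Field F] [Algebra K F] [Countable K]
    (h : IsRRField K F) : Countable F := by
  obtain ⟨x, -, hfin, -⟩ := h.exists_x
  haveI := hfin
  have h2 : #(K⟮x⟯) ≤ ℵ₀ := by
    refine (cardinalMk_adjoin_le K ({x} : Set F)).trans ?_
    have hK : #K ≤ ℵ₀ := Cardinal.mk_le_aleph0
    have hx : #({x} : Set F) ≤ ℵ₀ := Cardinal.mk_le_aleph0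
    exact sup_le (sup_le hK hx) le_rfl
  have h3 : #F ≤ max #(K⟮x⟯) ℵ₀ := Algebra.IsAlgebraic.cardinalMk_le_max K⟮x⟯ F
  rw [← Cardinal.mk_le_aleph0_iff]
  exact h3.trans (max_le h2 le_rfl)

/-- **(E2)** two generic places are conjugate under `Aut(K'/K)`. -/
theorem exists_descGal_smul_eq_pf {K K' : Type} [Field K] [Field K'] [Algebra ℚ K] [Algebra ℚ K']
    [Algebra K K'] {F₀ : IntermediateField ℚ (LaurentSeries ℚ)}
    [IsAlgClosed K] [IsAlgClosed K'] [CharZero K'] [Countable K] (hcard : ℵ₀ < #K')
    (hK : IsRRField K (laurentBaseChange K F₀)) (hK' : IsRRField K' (laurentBaseChange K' F₀))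
    (P Q : Place K' (laurentBaseChange K' F₀)) (hP : IsGen F₀ K K' P) (hQ : IsGen F₀ K K' Q) :
    ∃ σ ∈ descGal K K', arithmeticGalois F₀ σ • P = Q := by
  haveI : Countable (laurentBaseChange K F₀) := countable_of_isRRField hK
  obtain ⟨σ, hσ⟩ := exists_ringEquiv_of_embeddings hcard (genEval hK' P hP) (genEval hK' Q hQ)
  have hmem : descRatAlgEquiv K' σ ∈ descGal K K' := by
    intro a
    have h1 := hσ (algebraMap K (laurentBaseChange K F₀) a)
    rw [genEval_algebraMap, genEval_algebraMap] at h1
    rw [descRatAlgEquiv_apply]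
    exact h1
  refine ⟨descRatAlgEquiv K' σ, hmem, ?_⟩
  refine eq_of_genEval_eq hK hK' _ _ (isGen_smul hmem hP) hQ fun f => ?_
  rw [genEval_smul hK' hmem P hP f, descRatAlgEquiv_apply, hσ]

end Fermat.Agent.Div
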