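import Fermat.Agent.Lib.Div.Defs
import Fermat.Agent.Lib.Div.GenConj
import Fermat.Agent.Lib.Div.Fibre
import Fermat.Agent.Lib.Div.FieldExt

set_option autoImplicit false
set_option linter.style.haveILetI false

/-!
# DIV, work package E3: generic tuples are conjugate, `(L4)` of the blueprint

Induction on `i`: `σ_{i-1} Q_j = P_j` for `j < i`; `S = {c_j : j < i}`, `M = closField S`;
`σ_{i-1} Q_i` and `P_i` lie over values outside `M` (A7), so they are generic over `M` (E0) and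
conjugate under `Aut(Ω/M)` (E2, `M` countable by (A2)); the `P_j`, `j < i`, lie over values in `M`,
so they are fixed by `Aut(Ω/M)` (E0').
-/

noncomputable section

namespace Fermat.Agent.Div

open ModularCurve HahnSeries AlgebraicCurve Fermat.Agent.RR Fermat.Agent.F3I2 Cardinal

section ConjAux

variable {Ω : Type} [Field Ω] [Algebra ℚ Ω] [CharZero Ω]
variable {F₀ : IntermediateField ℚ (LaurentSeries ℚ)}

/-- `θ` sends the coordinate function of `F_M` to the coordinate function of `F_Ω`. -/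
theorem conj_descTheta_xOf (M : Subfield Ω) (x₀ : F₀) :
    descTheta ↥M Ω F₀ (xOf ↥M x₀) = xOf Ω x₀ :=
  descTheta_coeffEmb ↥M Ω F₀ x₀.2

omit [CharZero Ω] in
/-- the value of the coordinate function at a place over `a`. -/
theorem conj_ev_xOf {x₀ : F₀} {w : Place Ω (laurentBaseChange Ω F₀)} {a : Ω}
    (h : Over x₀ w a) : Fermat.Agent.S17.Pts.ev w (xOf Ω x₀) = a :=
  Fermat.Agent.S17.Pts.ev_eq_of_congAt h.congAt

/-- the coordinate function of `F_M` is not a constant. -/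
theorem conj_xOf_not_const (M : Subfield Ω) (x₀ : F₀)
    (hx : ∃ P : Place Ω (laurentBaseChange Ω F₀), P.ord (xOf Ω x₀) < 0) :
    xOf ↥M x₀ ∉ Set.range (algebraMap ↥M (laurentBaseChange ↥M F₀)) := by
  rintro ⟨a, ha⟩
  obtain ⟨P₀, hP₀⟩ := hx
  have h1 : xOf Ω x₀ = algebraMap Ω (laurentBaseChange Ω F₀) (algebraMap ↥M Ω a) := by
    rw [← conj_descTheta_xOf M x₀, ← ha, descTheta_algebraMap]
  exact fibre_ne_const hP₀ (algebraMap ↥M Ω a) (sub_eq_zero.mpr h1)

/-- a place over a value outside `M` is generic over `M`. -/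
theorem conj_isGen_of_over [IsAlgClosed Ω] (M : Subfield Ω) [IsAlgClosed ↥M]
    (hM : IsRRField ↥M (laurentBaseChange ↥M F₀))
    (hΩ : IsRRField Ω (laurentBaseChange Ω F₀)) {x₀ : F₀}
    {w : Place Ω (laurentBaseChange Ω F₀)} {a : Ω} (h : Over x₀ w a) (ha : a ∉ M) :
    IsGen F₀ ↥M Ω w := by
  refine isGen_of_ev_not_mem hM hΩ w (xOf ↥M x₀) ?_ ?_
  · rw [conj_descTheta_xOf]
    exact not_pole_of_over x₀ h
  · rw [conj_descTheta_xOf, conj_ev_xOf h]
    rintro ⟨b, rfl⟩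
    exact ha b.2

/-- a place over a value in `M` is fixed by `Aut(Ω/M)`. -/
theorem conj_smul_eq_of_over [IsAlgClosed Ω] (M : Subfield Ω) [IsAlgClosed ↥M]
    (hM : IsRRField ↥M (laurentBaseChange ↥M F₀))
    (hΩ : IsRRField Ω (laurentBaseChange Ω F₀)) {x₀ : F₀}
    (hx : ∃ P : Place Ω (laurentBaseChange Ω F₀), P.ord (xOf Ω x₀) < 0)
    {w : Place Ω (laurentBaseChange Ω F₀)} {a : Ω} (h : Over x₀ w a) (ha : a ∈ M)
    {τ : Ω ≃ₐ[ℚ] Ω} (hτ : τ ∈ descGal ↥M Ω) : arithmeticGalois F₀ τ • w = w := by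
  refine smul_eq_of_ev_mem hM hΩ w (xOf ↥M x₀) (conj_xOf_not_const M x₀ hx) (Or.inr ?_) hτ
  rw [conj_descTheta_xOf, conj_ev_xOf h]
  exact ⟨⟨a, ha⟩, rfl⟩

end ConjAux

/-- the induction behind `exists_conj`. -/
theorem exists_conj_aux {Ω : Type} [Field Ω] [Algebra ℚ Ω] [IsAlgClosed Ω] [CharZero Ω]
    (hcard : ℵ₀ < #Ω) {F₀ : IntermediateField ℚ (LaurentSeries ℚ)}
    (hRR : ∀ S : Finset Ω, IsRRField ↥(closField (S : Set Ω))
      (laurentBaseChange ↥(closField (S : Set Ω)) F₀))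
    (hΩ : IsRRField Ω (laurentBaseChange Ω F₀)) (x₀ : F₀)
    (hx : ∃ P : Place Ω (laurentBaseChange Ω F₀), P.ord (xOf Ω x₀) < 0)
    {g : ℕ} (P Q : Fin g → Place Ω (laurentBaseChange Ω F₀))
    (c d : Fin g → Ω) (hc : AlgebraicIndependent ℚ c) (hd : AlgebraicIndependent ℚ d)
    (hPc : ∀ i, Over x₀ (P i) (c i)) (hQd : ∀ i, Over x₀ (Q i) (d i)) (n : ℕ) (hn : n ≤ g) :
    ∃ σ ∈ galOver (∅ : Set Ω), ∀ i : Fin g, (i : ℕ) < n →
      arithmeticGalois F₀ σ • Q i = P i := by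
  classical
  induction n with
  | zero => exact ⟨1, Subgroup.one_mem _, fun i hi => absurd hi (Nat.not_lt_zero _)⟩
  | succ n ih =>
    obtain ⟨σ, hσ, hσQ⟩ := ih (Nat.le_of_succ_le hn)
    let i₀ : Fin g := ⟨n, hn⟩
    -- the values of the translated tuple
    have hσd : ∀ j : Fin g, (j : ℕ) < n → σ (d j) = c j := fun j hj =>
      over_unique x₀ (hσQ j hj ▸ over_smul x₀ σ (hQd j)) (hPc j)
    have hd' : AlgebraicIndependent ℚ (fun j => σ (d j)) :=
      hd.map' (f := (σ : Ω →ₐ[ℚ] Ω)) σ.injective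
    let S : Finset Ω := Finset.image c (Finset.univ.filter fun j : Fin g => (j : ℕ) < n)
    have hS1 : (S : Set Ω) ⊆ c '' {j | j ≠ i₀} := by
      intro a ha
      obtain ⟨j, hj, rfl⟩ := Finset.mem_image.mp (Finset.mem_coe.mp ha)
      have hj' : (j : ℕ) < n := (Finset.mem_filter.mp hj).2
      exact ⟨j, fun h => by rw [h] at hj'; exact lt_irrefl _ hj', rfl⟩
    have hS2 : (S : Set Ω) ⊆ (fun j => σ (d j)) '' {j | j ≠ i₀} := by
      intro a ha
      obtain ⟨j, hj, rfl⟩ := Finset.mem_image.mp (Finset.mem_coe.mp ha)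
      have hj' : (j : ℕ) < n := (Finset.mem_filter.mp hj).2
      exact ⟨j, fun h => by rw [h] at hj'; exact lt_irrefl _ hj', hσd j hj'⟩
    have hc₀ : c i₀ ∉ closField (S : Set Ω) := fun h =>
      not_mem_closField_of_algebraicIndependent c hc i₀ (closField_mono hS1 h)
    have hd₀ : σ (d i₀) ∉ closField (S : Set Ω) := fun h =>
      not_mem_closField_of_algebraicIndependent (fun j => σ (d j)) hd' i₀ (closField_mono hS2 h)
    haveI : IsAlgClosed ↥(closField (S : Set Ω)) := closField_isAlgClosed _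
    haveI : Countable ↥(closField (S : Set Ω)) :=
      countable_closField _ S.countable_toSet
    have hgP : IsGen F₀ ↥(closField (S : Set Ω)) Ω (P i₀) :=
      conj_isGen_of_over _ (hRR S) hΩ (hPc i₀) hc₀
    have hgQ : IsGen F₀ ↥(closField (S : Set Ω)) Ω (arithmeticGalois F₀ σ • Q i₀) :=
      conj_isGen_of_over _ (hRR S) hΩ (over_smul x₀ σ (hQd i₀)) hd₀
    obtain ⟨τ, hτ, hτQ⟩ := exists_descGal_smul_eq_pf hcard (hRR S) hΩ _ _ hgQ hgP
    have hτ' : τ ∈ galOver (∅ : Set Ω) := galOver_anti (Set.empty_subset (S : Set Ω)) hτ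
    refine ⟨τ * σ, Subgroup.mul_mem _ hτ' hσ, fun j hj => ?_⟩
    rw [map_mul, mul_smul]
    rcases Nat.lt_succ_iff_lt_or_eq.mp hj with hj' | hj'
    · rw [hσQ j hj']
      refine conj_smul_eq_of_over _ (hRR S) hΩ hx (hPc j) ?_ hτ
      exact subset_closField _ (Finset.mem_coe.mpr (Finset.mem_image.mpr
        ⟨j, Finset.mem_filter.mpr ⟨Finset.mem_univ _, hj'⟩, rfl⟩))
    · have hji : j = i₀ := Fin.ext hj'
      rw [hji]
      exact hτQ

/-- **(E3) = (L4)**: two generic tuples of places are conjugate under `Aut(Ω / ℚ̄)`. -/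
theorem exists_conj {Ω : Type} [Field Ω] [Algebra ℚ Ω] [IsAlgClosed Ω] [CharZero Ω]
    (hcard : ℵ₀ < #Ω) {F₀ : IntermediateField ℚ (LaurentSeries ℚ)}
    (hRR : ∀ S : Finset Ω, IsRRField ↥(closField (S : Set Ω))
      (laurentBaseChange ↥(closField (S : Set Ω)) F₀))
    (hΩ : IsRRField Ω (laurentBaseChange Ω F₀)) (x₀ : F₀)
    (hx : ∃ P : Place Ω (laurentBaseChange Ω F₀), P.ord (xOf Ω x₀) < 0)
    {g : ℕ} (P Q : Fin g → Place Ω (laurentBaseChange Ω F₀))
    (hP : IsGenTuple x₀ P) (hQ : IsGenTuple x₀ Q) :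
    ∃ σ ∈ galOver (∅ : Set Ω), ∀ i, arithmeticGalois F₀ σ • Q i = P i := by
  obtain ⟨c, hc, hPc⟩ := hP
  obtain ⟨d, hd, hQd⟩ := hQ
  obtain ⟨σ, hσ, h⟩ := exists_conj_aux hcard hRR hΩ x₀ hx P Q c d hc hd hPc hQd g le_rfl
  exact ⟨σ, hσ, fun i => h i i.2⟩

end Fermat.Agent.Div
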