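import Mathlib
import Fermat.Agent.F3.I2.Descent.Main
import Fermat.Agent.Lib.ConstExt.DescInst
import Fermat.Agent.S17.Pts.Galois

set_option autoImplicit false

/-!
# Package DIV (divisibility of `J₀(N)(ℚ̄)`), architect helper38: DEFINITIONS

Algebraic route (NOTES/blueprint-DIV.md): `Ω` an uncountable algebraically closed field of
characteristic `0` (in the end `ℂ`), `F_Ω = laurentBaseChange Ω F₀`, `x₀ ∈ F₀` a coordinate function.

* `closField S`     : the algebraic closure in `Ω` of `ℚ(S)`, as a `Subfield Ω`;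
* `galOver S`       : `Aut(Ω / closField S)` as a subgroup of `Ω ≃ₐ[ℚ] Ω`;
* `xOf`             : the coordinate function in `F_L`;
* `Over x₀ P c`     : the place `P` of `F_Ω` is a zero of `x - c`;
* `sumPl P`         : the effective divisor `P_0 + ... + P_{n-1}`;
* `IsGenTuple x₀ P` : the places `P i` lie over algebraically independent values;
* `cls hΩ P₀ D`     : the class of `D - deg(D) P₀` in `Pic0`;
* `orbitOf H x`     : the orbit of `x` under a subgroup `H` of `Ω ≃ₐ[ℚ] Ω`;
* `IsGen K K' F₀ w` : the place `w` of `F_K'` is trivial on `θ (F_K)`.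

This file contains definitions and trivial lemmas only.  DO NOT EDIT (ask helper38).
-/

noncomputable section

namespace Fermat.Agent.Div

open ModularCurve HahnSeries AlgebraicCurve Fermat.Agent.RR Fermat.Agent.F3I2

section Field

variable {Ω : Type*} [Field Ω]

/-- the algebraic closure in `Ω` of the field generated by `S`. -/
def closField (S : Set Ω) : Subfield Ω :=
  (algebraicClosure ↥(Subfield.closure S) Ω).toSubfield

theorem mem_closField {S : Set Ω} {a : Ω} :
    a ∈ closField S ↔ IsAlgebraic ↥(Subfield.closure S) a := by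
  unfold closField
  rw [IntermediateField.mem_toSubfield, mem_algebraicClosure_iff]

end Field

variable {Ω : Type*} [Field Ω] [Algebra ℚ Ω]
variable (F₀ : IntermediateField ℚ (LaurentSeries ℚ))

/-- `Aut(Ω / closField S)` inside `Aut(Ω/ℚ)`. -/
def galOver (S : Set Ω) : Subgroup (Ω ≃ₐ[ℚ] Ω) :=
  descGal ↥(closField S) Ω

theorem mem_galOver {S : Set Ω} {σ : Ω ≃ₐ[ℚ] Ω} :
    σ ∈ galOver S ↔ ∀ a ∈ closField S, σ a = a := by
  constructor
  · intro h a ha
    exact h ⟨a, ha⟩
  · intro h a
    exact h a a.2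

/-- the orbit of `x` under a subgroup of `Aut(Ω/ℚ)` acting through `arithmeticGalois`. -/
def orbitOf {X : Type*} [SMul (SemilinearAut Ω (laurentBaseChange Ω F₀)) X]
    (H : Subgroup (Ω ≃ₐ[ℚ] Ω)) (x : X) : Set X :=
  {y | ∃ σ ∈ H, arithmeticGalois F₀ σ • x = y}

/-- the place `w` of `F_K'` is GENERIC over `K`: it is trivial on `θ (F_K)`. -/
def IsGen (K K' : Type*) [Field K] [Field K'] [Algebra ℚ K] [Algebra ℚ K'] [Algebra K K']
    (w : Place K' (laurentBaseChange K' F₀)) : Prop :=
  ∀ f : laurentBaseChange K F₀, w.ord (descTheta K K' F₀ f) = 0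

variable {F₀}

/-- the coordinate function `x₀` in `F_L`. -/
def xOf (L : Type*) [Field L] [Algebra ℚ L] (x₀ : F₀) : laurentBaseChange L F₀ :=
  ⟨coeffEmb L (x₀ : LaurentSeries ℚ), coeffEmb_mem_laurentBaseChange L x₀.2⟩

/-- the place `P` is a zero of `x - c`. -/
def Over (x₀ : F₀) (P : Place Ω (laurentBaseChange Ω F₀)) (c : Ω) : Prop :=
  0 < P.ord (xOf Ω x₀ - algebraMap Ω (laurentBaseChange Ω F₀) c)

/-- the effective divisor `P_0 + ... + P_{n-1}`. -/
def sumPl {n : ℕ} (P : Fin n → Place Ω (laurentBaseChange Ω F₀)) :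
    Divisor Ω (laurentBaseChange Ω F₀) :=
  ∑ i, Finsupp.single (P i) (1 : ℤ)

/-- the places `P i` lie over algebraically independent values of the coordinate function. -/
def IsGenTuple (x₀ : F₀) {n : ℕ} (P : Fin n → Place Ω (laurentBaseChange Ω F₀)) : Prop :=
  ∃ c : Fin n → Ω, AlgebraicIndependent ℚ c ∧ ∀ i, Over x₀ (P i) (c i)

theorem degree_sub_single {K F : Type*} [Field K] [Field F] [Algebra K F] (h : IsRRField K F)
    (P₀ : Place K F) (D : Divisor K F) :
    Divisor.degree (D - Finsupp.single P₀ (Divisor.degree D)) = 0 := by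
  rw [map_sub, Divisor.degree_single, h.deg_one]
  simp

/-- the class of `D - deg(D) P₀`. -/
def cls {K F : Type*} [Field K] [Field F] [Algebra K F] (h : IsRRField K F)
    (P₀ : Place K F) (D : Divisor K F) : Pic0 K F :=
  Pic0.mk ⟨D - Finsupp.single P₀ (Divisor.degree D), degree_sub_single h P₀ D⟩

end Fermat.Agent.Div
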