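import Fermat.Agent.Lib.Div.Defs

set_option autoImplicit false

/-!
# DIV, work package F: classes with finite orbit descend, `(L5)` of the blueprint

`K ⊂ K'` algebraically closed of characteristic `0`.  A class of `Pic0 (F_K')` with finite orbit
under `Aut(K'/K)` lies in the range of `bc`.  Proof: as `DescPlaces.torsion_descends`
(F3/I2/Descent/Surj.lean) but simpler: the canonical effective representative `E` (Canon.lean) has
finite orbit, so every point of `E` has finite orbit; a generic place has infinite orbit (its value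
at a nonconstant function of `F_K` is not in `K`, `exists_aut_translate`); so `E = bcDiv E₀`.
-/

noncomputable section

namespace Fermat.Agent.Div

open ModularCurve HahnSeries AlgebraicCurve Fermat.Agent.RR Fermat.Agent.F3I2

variable {K K' : Type*} [Field K] [Field K'] [Algebra ℚ K] [Algebra ℚ K'] [Algebra K K']
variable {F₀ : IntermediateField ℚ (LaurentSeries ℚ)}

/-- the value at a generic place of `θ t`, `t` a nonconstant function of `F_K`, is not in `K`. -/
theorem descF_ev_not_mem_range
    (hK' : IsRRField K' (laurentBaseChange K' F₀)) (w : Place K' (laurentBaseChange K' F₀))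
    (h0 : ∀ f : laurentBaseChange K F₀, w.ord (descTheta K K' F₀ f) = 0)
    (t : laurentBaseChange K F₀) (ht : ∀ c : K, t ≠ algebraMap K (laurentBaseChange K F₀) c) :
    Fermat.Agent.S17.Pts.ev w (descTheta K K' F₀ t) ∉ Set.range (algebraMap K K') := by
  rintro ⟨c, hc⟩
  have hcong := Fermat.Agent.S17.Pts.congAt_ev hK' w (h0 t).ge
  have hsub : descTheta K K' F₀ t - algebraMap K' (laurentBaseChange K' F₀)
      (Fermat.Agent.S17.Pts.ev w (descTheta K K' F₀ t))
      = descTheta K K' F₀ (t - algebraMap K (laurentBaseChange K F₀) c) := by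
    rw [map_sub, descTheta_algebraMap, hc]
  rcases hcong with h1 | h1
  · have h2 : descTheta K K' F₀ (t - algebraMap K (laurentBaseChange K F₀) c) = 0 := by
      rw [← hsub]
      exact sub_eq_zero.mpr h1
    have h3 := (map_eq_zero_iff _ (descTheta_injective K K' F₀)).mp h2
    exact ht c (sub_eq_zero.mp h3)
  · rw [hsub, h0] at h1
    exact lt_irrefl _ h1

/-- a place of `F_K'` with finite orbit under `Aut(K'/K)` is an extension place. -/
theorem exists_ext_eq_of_finite_orbit [IsAlgClosed K] [IsAlgClosed K'] [CharZero K']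
    (P : DescPlaces K K' F₀) (hK : IsRRField K (laurentBaseChange K F₀))
    (hK' : IsRRField K' (laurentBaseChange K' F₀)) (w : Place K' (laurentBaseChange K' F₀))
    (hfin : {y : Place K' (laurentBaseChange K' F₀) |
      ∃ σ ∈ descGal K K', arithmeticGalois F₀ σ • w = y}.Finite) :
    ∃ v, P.ext v = w := by
  classical
  rcases P.dich w with h | h0
  · exact h
  exfalso
  obtain ⟨v₀⟩ := nonempty_place hK
  obtain ⟨t, ht⟩ := exists_uniformizer v₀
  have htc : ∀ c : K, t ≠ algebraMap K (laurentBaseChange K F₀) c := by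
    rintro c rfl
    by_cases hc : c = 0
    · subst hc
      rw [map_zero] at ht
      have h1 : v₀.ord (0 : laurentBaseChange K F₀) = 0 := by
        have := h0 0
        rw [map_zero] at this
        have h2 := P.ord_ext v₀ 0
        rw [map_zero] at h2
        have h3 : (0 : ℤ) ≤ v₀.ord (0 : laurentBaseChange K F₀) :=
          Fermat.Agent.S24Res.ord_nonneg_of_mem v₀ (v₀.toValuationSubring.zero_mem)
        have h4 : (0 : ℤ) ≤ v₀.ord ((0 : laurentBaseChange K F₀))⁻¹ := by
          rw [inv_zero]; exact h3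
        rw [v₀.ord_inv] at h4
        omega
      omega
    · rw [descPlace_ord_algebraMap v₀ hc] at ht
      exact zero_ne_one ht
  set f := descTheta K K' F₀ t with hf
  set a := Fermat.Agent.S17.Pts.ev w f with ha
  have hanot : a ∉ Set.range (algebraMap K K') := descF_ev_not_mem_range hK' w h0 t htc
  have hex : ∀ n : ℕ, ∃ σ ∈ descGal K K', σ a = a + n := by
    intro n
    obtain ⟨σ, hσ, hσa⟩ := exists_aut_translate (algebraMap K K') a hanot n
    exact ⟨descRatAlgEquiv K' σ, fun c => hσ c, hσa⟩
  choose σ hσ hσa using hex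
  have hev : ∀ n : ℕ, Fermat.Agent.S17.Pts.ev (arithmeticGalois F₀ (σ n) • w) f = a + n := by
    intro n
    rw [Fermat.Agent.S17.Pts.ev_smul_of_fixed hK' _ w (descGal_smul_theta F₀ (hσ n) t),
      baseAut_arithmeticGalois]
    exact hσa n
  have hinj : Function.Injective (fun n : ℕ => arithmeticGalois F₀ (σ n) • w) := by
    intro n m hnm
    have h1 := congrArg (fun Q => Fermat.Agent.S17.Pts.ev Q f) hnm
    simp only [hev] at h1
    have h2 : (n : K') = (m : K') := add_left_cancel h1
    exact_mod_cast h2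
  refine (Set.infinite_range_of_injective hinj) (hfin.subset ?_)
  rintro _ ⟨n, rfl⟩
  exact ⟨σ n, hσ n, rfl⟩

/-- **(F) = (L5)**: a class with finite orbit under `Aut(K'/K)` comes from `F_K`. -/
theorem mem_range_bc_of_finite_orbit [IsAlgClosed K] [IsAlgClosed K'] [CharZero K']
    (P : DescPlaces K K' F₀) (hK : IsRRField K (laurentBaseChange K F₀))
    (hK' : IsRRField K' (laurentBaseChange K' F₀)) (w : Pic0 K' (laurentBaseChange K' F₀))
    (hfin : {y : Pic0 K' (laurentBaseChange K' F₀) |
      ∃ σ ∈ descGal K K', arithmeticGalois F₀ σ • w = y}.Finite) :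
    w ∈ Set.range (P.bc hK hK') := by
  classical
  obtain ⟨D', rfl⟩ := Pic0.mk_surjective w
  obtain ⟨v₀⟩ := nonempty_place hK
  set P₀ := P.ext v₀ with hP₀
  have hD'0 : Divisor.degree (D' : Divisor K' (laurentBaseChange K' F₀)) = 0 := D'.2
  obtain ⟨m, E, hE, hED, huniq⟩ := exists_canonical_effective hK' P₀ (D' : Divisor K' _) hD'0
  -- the stabiliser of the class fixes `E`
  have hfix : ∀ ρ ∈ descGal K K', arithmeticGalois F₀ ρ • Pic0.mk D' = Pic0.mk D' →
      arithmeticGalois F₀ ρ • E = E := by
    intro ρ hρ hρx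
    have hgD : (arithmeticGalois F₀ ρ • (D' : Divisor K' (laurentBaseChange K' F₀)) - D') ∈
        Divisor.principal (K := K') (F := laurentBaseChange K' F₀) := by
      rw [SemilinearAut.pic0_smul_mk, descPic0_mk_eq_iff] at hρx
      exact hρx
    exact canonical_effective_fixed hK' P₀ _ hD'0 m E hE hED huniq _ (P.smul_ext hρ v₀) hgD
  have hkey : ∀ σ ∈ descGal K K', ∀ τ ∈ descGal K K',
      arithmeticGalois F₀ σ • Pic0.mk D' = arithmeticGalois F₀ τ • Pic0.mk D' →
      arithmeticGalois F₀ σ • E = arithmeticGalois F₀ τ • E := by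
    intro σ hσ τ hτ h
    have hρ : τ⁻¹ * σ ∈ descGal K K' := mul_mem (inv_mem hτ) hσ
    have h1 : arithmeticGalois F₀ (τ⁻¹ * σ) • Pic0.mk D' = Pic0.mk D' := by
      rw [map_mul, mul_smul, h, ← mul_smul, map_inv, inv_mul_cancel, one_smul]
    have h2 := hfix _ hρ h1
    have h3 : arithmeticGalois F₀ σ = arithmeticGalois F₀ τ * arithmeticGalois F₀ (τ⁻¹ * σ) := by
      rw [← map_mul, mul_inv_cancel_left]
    rw [h3, mul_smul, h2]
  -- the orbit of `E` is finite
  have hfinE : Set.Finite {E' : Divisor K' (laurentBaseChange K' F₀) |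
      ∃ σ ∈ descGal K K', arithmeticGalois F₀ σ • E = E'} := by
    let ψ : Pic0 K' (laurentBaseChange K' F₀) → Divisor K' (laurentBaseChange K' F₀) := fun c =>
      if h : ∃ σ ∈ descGal K K', arithmeticGalois F₀ σ • Pic0.mk D' = c then
        arithmeticGalois F₀ h.choose • E else 0
    refine (hfin.image ψ).subset ?_
    rintro y ⟨σ, hσ, rfl⟩
    refine ⟨arithmeticGalois F₀ σ • Pic0.mk D', ⟨σ, hσ, rfl⟩, ?_⟩
    have hex : ∃ τ ∈ descGal K K',
        arithmeticGalois F₀ τ • Pic0.mk D' = arithmeticGalois F₀ σ • Pic0.mk D' :=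
      ⟨σ, hσ, rfl⟩
    show (if h : ∃ τ ∈ descGal K K',
        arithmeticGalois F₀ τ • Pic0.mk D' = arithmeticGalois F₀ σ • Pic0.mk D' then
      arithmeticGalois F₀ h.choose • E else 0) = _
    rw [dif_pos hex]
    exact hkey _ hex.choose_spec.1 _ hσ hex.choose_spec.2
  -- every point of `E` is an extension place
  have hsupp : (E.support : Set (Place K' (laurentBaseChange K' F₀))) ⊆ Set.range P.ext := by
    intro Q hQ
    rw [Finset.mem_coe, Finsupp.mem_support_iff] at hQ
    refine exists_ext_eq_of_finite_orbit P hK hK' Q ?_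
    have hfinU : (⋃ E' ∈ {E' : Divisor K' (laurentBaseChange K' F₀) |
        ∃ σ ∈ descGal K K', arithmeticGalois F₀ σ • E = E'},
        (E'.support : Set (Place K' (laurentBaseChange K' F₀)))).Finite :=
      hfinE.biUnion fun E' _ => E'.support.finite_toSet
    refine hfinU.subset ?_
    rintro _ ⟨σ, hσ, rfl⟩
    refine Set.mem_biUnion (x := arithmeticGalois F₀ σ • E) ⟨σ, hσ, rfl⟩ ?_
    rw [Finset.mem_coe, Finsupp.mem_support_iff, SemilinearAut.divisor_smul_apply_smul]
    exact hQ
  set D'' : Divisor K' (laurentBaseChange K' F₀) := E - Finsupp.single P₀ (m : ℤ) with hD''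
  let E₀ : Divisor K (laurentBaseChange K F₀) :=
    Finsupp.comapDomain P.ext E P.ext_injective.injOn
  have hbcE : P.bcDiv E₀ = E := Finsupp.mapDomain_comapDomain P.ext P.ext_injective E hsupp
  set D : Divisor K (laurentBaseChange K F₀) := E₀ - Finsupp.single v₀ (m : ℤ) with hD
  have hbc : P.bcDiv D = D'' := by
    rw [hD, map_sub, hbcE, DescPlaces.bcDiv_single]
  have hprin : ((D' : Divisor K' (laurentBaseChange K' F₀)) - D'') ∈
      Divisor.principal (K := K') (F := laurentBaseChange K' F₀) := by
    have := neg_mem hED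
    have h2 : -(E - (D' : Divisor K' (laurentBaseChange K' F₀)) - Finsupp.single P₀ (m : ℤ))
        = (D' : Divisor K' (laurentBaseChange K' F₀)) - (E - Finsupp.single P₀ (m : ℤ)) := by
      abel
    rwa [h2] at this
  have hdeg : Divisor.degree D = 0 := by
    rw [← P.degree_bcDiv hK hK', hbc]
    have h1 := descDegree_eq_zero_of_principal hK' hprin
    rw [map_sub, hD'0] at h1
    omega
  refine ⟨Pic0.mk ⟨D, hdeg⟩, ?_⟩
  rw [DescPlaces.bc_mk, descPic0_mk_eq_iff]
  simp only [DescPlaces.coe_bcDegZero]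
  rw [hbc]
  have := neg_mem hprin
  simpa using this

/-- the classes in the range of `bc` are fixed by `Aut(K'/K)`. -/
theorem smul_bc (P : DescPlaces K K' F₀) (hK : IsRRField K (laurentBaseChange K F₀))
    (hK' : IsRRField K' (laurentBaseChange K' F₀)) {σ : K' ≃ₐ[ℚ] K'} (hσ : σ ∈ descGal K K')
    (y : Pic0 K (laurentBaseChange K F₀)) :
    arithmeticGalois F₀ σ • P.bc hK hK' y = P.bc hK hK' y := by
  obtain ⟨D, rfl⟩ := Pic0.mk_surjective y
  rw [DescPlaces.bc_mk, SemilinearAut.pic0_smul_mk]
  congr 1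
  apply Subtype.ext
  rw [SemilinearAut.coe_degZeroSMulHom, DescPlaces.coe_bcDegZero]
  exact P.smul_bcDiv hσ _

end Fermat.Agent.Div
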