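import Fermat.Agent.Lib.Div.Defs
import Fermat.Agent.Lib.Div.Gen.E0
import Fermat.Agent.Lib.Div.Gen.Spec

set_option autoImplicit false

/-!
# DIV, work package E1/E2: generic places of a constant field extension are conjugate

`K ⊂ K'` algebraically closed of characteristic `0`, `θ = descTheta K K' F₀ : F_K → F_K'`.
A place `w` of `F_K'` is generic over `K` (`IsGen K K' F₀ w`) if it is trivial on `θ F_K`; then
`f ↦ ev w (θ f)` is a ring embedding `F_K → K'` over `K`.

* (E1) `eq_of_ev_eq`: a generic place is determined by its value map.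
  Proof (blueprint): `R = K'[θ F_K]`; every element of `F_K'` is a quotient of elements of `R`
  (`Fermat.Agent.ConstExt.exists_frac`); `u = θ x - c`, `c = ev w (θ x)`, `x ∈ F_K` nonconstant;
  for `f ∈ F_K` take `Ψ(X,Y) ≠ 0` over `K` of minimal `Y`-degree with `Ψ(x,f) = 0`; then
  `0 = u·A + (θ f - ev f)·B` with `A, B ∈ R` and `ev B = Ψ_Y(c, ev f) = ev(θ Ψ_Y(x,f)) ≠ 0`.
  So every `r ∈ R` is `u^m · (unit)` with `m` depending only on the value map, and
  `ord_w(a/b) ≥ 0 ↔ m(a) ≥ m(b)`.
* (E2) two generic places are conjugate under `Aut(K'/K)`: see `GenConj.lean`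
  ((A1) applied to the two value maps `F_K → K'`, then (E1)).
-/

noncomputable section

namespace Fermat.Agent.Div

open ModularCurve HahnSeries AlgebraicCurve Fermat.Agent.RR Fermat.Agent.F3I2
open Fermat.Agent.S17 Cardinal

section Pair

variable {K K' : Type*} [Field K] [Field K'] [Algebra ℚ K] [Algebra ℚ K'] [Algebra K K']
variable {F₀ : IntermediateField ℚ (LaurentSeries ℚ)}

/-- the value map of a generic place, as a ring homomorphism `F_K → K'`. -/
def genEval (hK' : IsRRField K' (laurentBaseChange K' F₀))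
    (w : Place K' (laurentBaseChange K' F₀)) (hw : IsGen F₀ K K' w) :
    laurentBaseChange K F₀ →+* K' where
  toFun f := Pts.ev w (descTheta K K' F₀ f)
  map_one' := by rw [map_one, Pts.ev_one]
  map_zero' := by rw [map_zero, Pts.ev_zero]
  map_mul' f g := by
    rw [map_mul]
    exact Pts.ev_mul hK' w (hw f).ge (hw g).ge
  map_add' f g := by
    rw [map_add]
    exact Pts.ev_add hK' w (hw f).ge (hw g).ge

theorem genEval_apply (hK' : IsRRField K' (laurentBaseChange K' F₀))
    (w : Place K' (laurentBaseChange K' F₀)) (hw : IsGen F₀ K K' w)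
    (f : laurentBaseChange K F₀) :
    genEval hK' w hw f = Pts.ev w (descTheta K K' F₀ f) := rfl

theorem genEval_algebraMap (hK' : IsRRField K' (laurentBaseChange K' F₀))
    (w : Place K' (laurentBaseChange K' F₀)) (hw : IsGen F₀ K K' w) (a : K) :
    genEval hK' w hw (algebraMap K (laurentBaseChange K F₀) a) = algebraMap K K' a := by
  rw [genEval_apply, descTheta_algebraMap, Pts.ev_algebraMap]

/-- a Galois translate of a generic place is generic. -/
theorem isGen_smul {σ : K' ≃ₐ[ℚ] K'} (hσ : σ ∈ descGal K K')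
    {w : Place K' (laurentBaseChange K' F₀)} (hw : IsGen F₀ K K' w) :
    IsGen F₀ K K' (arithmeticGalois F₀ σ • w) :=
  GenSpec.isGen_smul_pf hσ hw

/-- the value map of a Galois translate. -/
theorem genEval_smul (hK' : IsRRField K' (laurentBaseChange K' F₀)) {σ : K' ≃ₐ[ℚ] K'}
    (hσ : σ ∈ descGal K K') (w : Place K' (laurentBaseChange K' F₀)) (hw : IsGen F₀ K K' w)
    (f : laurentBaseChange K F₀) :
    genEval hK' (arithmeticGalois F₀ σ • w) (isGen_smul hσ hw) f = σ (genEval hK' w hw f) := by
  rw [genEval_apply, genEval_apply]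
  exact GenSpec.ev_smul_theta hK' hσ w f

/-- **(E0)** a place of `F_K'` at which some `θ f` takes a value outside `K` is generic. -/
theorem isGen_of_ev_not_mem [IsAlgClosed K] (hK : IsRRField K (laurentBaseChange K F₀))
    (hK' : IsRRField K' (laurentBaseChange K' F₀)) (w : Place K' (laurentBaseChange K' F₀))
    (f : laurentBaseChange K F₀) (hf : 0 ≤ w.ord (descTheta K K' F₀ f))
    (hc : Pts.ev w (descTheta K K' F₀ f) ∉ Set.range (algebraMap K K')) :
    IsGen F₀ K K' w :=
  isGen_of_ev_not_mem_pf hK hK' w f hf hc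

/-- **(E0')** a place of `F_K'` at which a nonconstant `θ f` takes a value in `K` (or has a pole)
is an extension place, hence is fixed by `Aut(K'/K)`. -/
theorem smul_eq_of_ev_mem [IsAlgClosed K] (hK : IsRRField K (laurentBaseChange K F₀))
    (hK' : IsRRField K' (laurentBaseChange K' F₀)) (w : Place K' (laurentBaseChange K' F₀))
    (f : laurentBaseChange K F₀) (hf : f ∉ Set.range (algebraMap K (laurentBaseChange K F₀)))
    (hc : w.ord (descTheta K K' F₀ f) < 0 ∨
      Pts.ev w (descTheta K K' F₀ f) ∈ Set.range (algebraMap K K'))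
    {σ : K' ≃ₐ[ℚ] K'} (hσ : σ ∈ descGal K K') : arithmeticGalois F₀ σ • w = w :=
  smul_eq_of_ev_mem_pf hK hK' w f hf hc hσ

/-- **(E1)** a generic place is determined by its value map. -/
theorem eq_of_genEval_eq [IsAlgClosed K] [IsAlgClosed K'] [CharZero K']
    (hK : IsRRField K (laurentBaseChange K F₀)) (hK' : IsRRField K' (laurentBaseChange K' F₀))
    (P Q : Place K' (laurentBaseChange K' F₀)) (hP : IsGen F₀ K K' P) (hQ : IsGen F₀ K K' Q)
    (h : ∀ f, genEval hK' P hP f = genEval hK' Q hQ f) : P = Q :=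
  GenSpec.place_eq_of_ev_theta_eq hK hK' P Q hP hQ h

end Pair

end Fermat.Agent.Div
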