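import Fermat.Agent.Lib.Div.Defs
import Fermat.Agent.Lib.Div.FieldExt
import Fermat.Agent.Lib.Div.Fibre
import Fermat.Agent.Lib.RR.Weil

set_option autoImplicit false
set_option linter.unusedSectionVars false
set_option linter.style.haveILetI false

/-!
# DIV, work package C: generic effective divisors of degree `≤ g` are nonspecial

`(L2)` of the blueprint.  `ell_sumPl_eq_one` is proved by induction on `n` from
`finite_ell_add_single_ne` (pure Riemann-Roch) and the translation automorphisms
`exists_galOver_translate` (FieldExt.lean), with `finite_over`, `over_smul` (Fibre.lean).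
-/

noncomputable section

namespace Fermat.Agent.Div

open ModularCurve HahnSeries AlgebraicCurve Fermat.Agent.RR Fermat.Agent.F3I2

section General

variable {K F : Type*} [Field K] [Field F] [Algebra K F]

/-- the action of a semilinear automorphism on a Riemann-Roch space. -/
theorem nsp_smul_mem (g : SemilinearAut K F) {D : Divisor K F} {f : F}
    (hf : f ∈ riemannRochSpace D) : g • f ∈ riemannRochSpace (g • D) := by
  rw [mem_riemannRochSpace_iff] at hf ⊢
  intro w
  rcases hf (g⁻¹ • w) with h0 | h1
  · left
    rw [h0, smul_zero]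
  · right
    rw [SemilinearAut.divisor_smul_apply]
    have := SemilinearAut.ord_smul g (g⁻¹ • w) f
    rw [smul_inv_smul] at this
    rw [this]
    exact h1

/-- the additive equivalence `L(D) ≃ L(g • D)`, `f ↦ g • f`. -/
def nspEquiv (g : SemilinearAut K F) (D : Divisor K F) :
    riemannRochSpace D ≃+ riemannRochSpace (g • D) where
  toFun f := ⟨g • (f : F), nsp_smul_mem g f.2⟩
  invFun f := ⟨g⁻¹ • (f : F), by
    have := nsp_smul_mem g⁻¹ f.2
    rwa [inv_smul_smul] at this⟩
  left_inv f := Subtype.ext (inv_smul_smul g (f : F))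
  right_inv f := Subtype.ext (smul_inv_smul g (f : F))
  map_add' f f' := Subtype.ext (smul_add g (f : F) (f' : F))

/-- **(C1)** `ℓ` is invariant under semilinear automorphisms. -/
theorem ell_smul (g : SemilinearAut K F) (D : Divisor K F) : ell (g • D) = ell D := by
  have hrank : Module.rank K (riemannRochSpace D) = Module.rank K (riemannRochSpace (g • D)) := by
    refine rank_eq_of_equiv_equiv (SemilinearAut.baseAut g) (nspEquiv g D)
      (SemilinearAut.baseAut g).bijective ?_
    intro c f
    apply Subtype.ext
    show g • ((c • f : riemannRochSpace D) : F) = SemilinearAut.baseAut g c • (g • (f : F))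
    rw [Submodule.coe_smul, Algebra.smul_def, Algebra.smul_def, smul_mul',
      SemilinearAut.smul_algebraMap]
  rw [ell_def, ell_def, Module.finrank, Module.finrank, hrank]

/-- **(C0)** (Riemann-Roch) if `D ≥ 0`, `ℓ(D) = 1` and `deg D < g`, then `ℓ(D + P) = 1` for all
places `P` outside a finite set (the zeros of a differential vanishing on `D`). -/
theorem finite_ell_add_single_ne (h : IsRRField K F) (D : Divisor K F) (hD : 0 ≤ D)
    (hell : ell D = 1) (hdeg : Divisor.degree D < (genusFF K F : ℤ)) :
    {P : Place K F | ell (D + Finsupp.single P 1) ≠ 1}.Finite := by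
  classical
  obtain ⟨W, hW⟩ := riemann_roch h
  have h1 := hW D
  rw [hell] at h1
  have hpos : 1 ≤ ell (W - D) := by
    have : (1 : ℤ) ≤ (ell (W - D) : ℤ) := by
      push_cast at h1
      linarith
    exact_mod_cast this
  have hne : riemannRochSpace (W - D) ≠ ⊥ := by
    intro hbot
    rw [ell_def, hbot, finrank_bot] at hpos
    omega
  obtain ⟨ω, hω, hω0⟩ := Submodule.exists_mem_ne_zero_of_ne_bot hne
  set E := W - D + divOf h ω with hE
  refine (E.support.finite_toSet).subset ?_
  intro P hP
  rw [Set.mem_ofPred_eq] at hP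
  rw [Finset.mem_coe, Finsupp.mem_support_iff]
  intro hEP
  apply hP
  -- `ω ∉ L(W - D - P)`
  have hord : P.ord ω = -(W - D) P := by
    have : (W - D) P + P.ord ω = 0 := by
      have := hEP
      rw [hE, Finsupp.add_apply, divOf_apply] at this
      exact this
    linarith
  have hnot : ω ∉ riemannRochSpace (W - D - Finsupp.single P 1) := by
    intro hmem
    have := ((mem_riemannRochSpace_iff.mp hmem) P).resolve_left hω0
    rw [Finsupp.sub_apply, Finsupp.single_eq_same, hord] at this
    linarith
  have hstep : ell (W - D - Finsupp.single P 1 + Finsupp.single P 1)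
      = ell (W - D - Finsupp.single P 1) + 1 :=
    (ell_add_single_eq_iff h _ P).mpr ⟨ω, by rwa [sub_add_cancel], hnot⟩
  rw [sub_add_cancel] at hstep
  have h2 := hW (D + Finsupp.single P 1)
  have h3 : W - (D + Finsupp.single P 1) = W - D - Finsupp.single P 1 := by abel
  rw [h3, degree_add_single h] at h2
  have h4 : (ell (D + Finsupp.single P 1) : ℤ) = 1 := by
    have h5 : (ell (W - D) : ℤ) = (ell (W - D - Finsupp.single P 1) : ℤ) + 1 := by
      exact_mod_cast hstep
    push_cast at h1
    linarith
  exact_mod_cast h4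

end General

variable {Ω : Type*} [Field Ω] [Algebra ℚ Ω] [IsAlgClosed Ω] [CharZero Ω]
variable {F₀ : IntermediateField ℚ (LaurentSeries ℚ)}

theorem nsp_sumPl_succ {n : ℕ} (P : Fin (n + 1) → Place Ω (laurentBaseChange Ω F₀)) :
    sumPl P = sumPl (fun i : Fin n => P i.castSucc) + Finsupp.single (P (Fin.last n)) 1 := by
  unfold sumPl
  rw [Fin.sum_univ_castSucc]

theorem nsp_sumPl_nonneg {n : ℕ} (P : Fin n → Place Ω (laurentBaseChange Ω F₀)) :
    0 ≤ sumPl P := by
  unfold sumPl
  refine Finset.sum_nonneg fun i _ => ?_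
  rw [Finsupp.le_def]
  intro v
  by_cases hv : v = P i
  · rw [hv, Finsupp.single_eq_same]
    exact zero_le_one
  · rw [Finsupp.single_eq_of_ne hv]
    exact le_rfl

theorem nsp_degree_sumPl (hΩ : IsRRField Ω (laurentBaseChange Ω F₀)) {n : ℕ}
    (P : Fin n → Place Ω (laurentBaseChange Ω F₀)) : Divisor.degree (sumPl P) = n := by
  unfold sumPl
  rw [map_sum]
  simp only [Divisor.degree_single, hΩ.deg_one, Nat.cast_one, mul_one, Finset.sum_const,
    Finset.card_univ, Fintype.card_fin, nsmul_eq_mul]

theorem nsp_support_sumPl {n : ℕ} (P : Fin n → Place Ω (laurentBaseChange Ω F₀))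
    {Q : Place Ω (laurentBaseChange Ω F₀)} (hQ : Q ∈ (sumPl P).support) : ∃ i, Q = P i := by
  classical
  by_contra hcon
  rw [not_exists] at hcon
  rw [Finsupp.mem_support_iff] at hQ
  apply hQ
  unfold sumPl
  rw [Finsupp.finset_sum_apply]
  refine Finset.sum_eq_zero fun i _ => ?_
  exact Finsupp.single_eq_of_ne (hcon i)

/-- **(C) = (L2)**: a generic effective divisor of degree `n ≤ g` has `ℓ = 1`. -/
theorem ell_sumPl_eq_one (hΩ : IsRRField Ω (laurentBaseChange Ω F₀)) (x₀ : F₀) {n : ℕ}
    (hn : n ≤ genusFF Ω (laurentBaseChange Ω F₀))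
    (P : Fin n → Place Ω (laurentBaseChange Ω F₀)) (hP : IsGenTuple x₀ P) :
    ell (sumPl P) = 1 := by
  classical
  induction n with
  | zero =>
    have : sumPl P = 0 := by
      unfold sumPl
      exact Finset.sum_empty
    rw [this, ell_zero hΩ]
  | succ n ih =>
    obtain ⟨c, hc, hover⟩ := hP
    set P' : Fin n → Place Ω (laurentBaseChange Ω F₀) := fun i => P i.castSucc with hP'
    set D := sumPl P' with hD
    have hgen' : IsGenTuple x₀ P' :=
      ⟨fun i => c i.castSucc, hc.comp _ (Fin.castSucc_injective n), fun i => hover i.castSucc⟩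
    have hellD : ell D = 1 := ih (by omega) P' hgen'
    have hD0 : 0 ≤ D := nsp_sumPl_nonneg P'
    have hdegD : Divisor.degree D = n := nsp_degree_sumPl hΩ P'
    rw [nsp_sumPl_succ P]
    by_contra hbad
    -- the set of values of the first `n` points
    set S : Set Ω := c '' {j | j ≠ Fin.last n} with hS
    have hcS : ∀ i : Fin n, c i.castSucc ∈ closField S := fun i =>
      subset_closField S ⟨i.castSucc, (Fin.castSucc_lt_last i).ne, rfl⟩
    have hlast : c (Fin.last n) ∉ closField S :=
      not_mem_closField_of_algebraicIndependent c hc (Fin.last n)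
    -- translations
    choose σ hσS hσ using fun m : ℕ => exists_galOver_translate S hlast m
    -- the orbit of `D` is finite
    have hfinD : (orbitOf F₀ (galOver S) D).Finite := by
      refine finite_orbit_divisor (galOver S) D fun Q hQ => ?_
      obtain ⟨i, rfl⟩ := nsp_support_sumPl P' hQ
      exact finite_orbit_of_over hΩ x₀ S (hover i.castSucc) (hcS i)
    -- pigeonhole: infinitely many `m` with the same `σ m • D`
    have hmaps : ∀ m : ℕ, arithmeticGalois F₀ (σ m) • D ∈ orbitOf F₀ (galOver S) D :=
      fun m => ⟨σ m, hσS m, rfl⟩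
    haveI : Finite ↥(orbitOf F₀ (galOver S) D) := hfinD.to_subtype
    obtain ⟨y, hy⟩ := Finite.exists_infinite_fiber
      (fun m : ℕ => (⟨arithmeticGalois F₀ (σ m) • D, hmaps m⟩ : ↥(orbitOf F₀ (galOver S) D)))
    set D' : Divisor Ω (laurentBaseChange Ω F₀) := (y : Divisor Ω (laurentBaseChange Ω F₀))
      with hD'
    have hinf' : {m : ℕ | arithmeticGalois F₀ (σ m) • D = D'}.Infinite := by
      have h1 := Set.infinite_coe_iff.mp hy
      refine h1.mono ?_
      intro m hm
      have hm' : (⟨arithmeticGalois F₀ (σ m) • D, hmaps m⟩ : ↥(orbitOf F₀ (galOver S) D)) = y :=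
        hm
      exact congrArg Subtype.val hm'
    -- `D'` is effective of degree `n < g` with `ℓ = 1`
    obtain ⟨m₀, hm₀⟩ := hinf'.nonempty
    have hm₀' : arithmeticGalois F₀ (σ m₀) • D = D' := hm₀
    have hD'0 : 0 ≤ D' := by
      rw [← hm₀', Finsupp.le_def]
      intro w
      rw [SemilinearAut.divisor_smul_apply]
      exact Finsupp.le_def.mp hD0 _
    have hD'ell : ell D' = 1 := by rw [← hm₀', ell_smul, hellD]
    have hD'deg : Divisor.degree D' < (genusFF Ω (laurentBaseChange Ω F₀) : ℤ) := by
      rw [← hm₀', SemilinearAut.degree_smul, hdegD]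
      exact_mod_cast hn
    have hfin := finite_ell_add_single_ne hΩ D' hD'0 hD'ell hD'deg
    -- the points `σ m • P_last` are pairwise distinct and all bad
    have hinj : Set.InjOn (fun m : ℕ => arithmeticGalois F₀ (σ m) • P (Fin.last n))
        {m | arithmeticGalois F₀ (σ m) • D = D'} := by
      intro m _ m' _ hmm
      have h1 := over_smul x₀ (σ m) (hover (Fin.last n))
      have h2 := over_smul x₀ (σ m') (hover (Fin.last n))
      have hmm' : arithmeticGalois F₀ (σ m) • P (Fin.last n)
          = arithmeticGalois F₀ (σ m') • P (Fin.last n) := hmm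
      rw [hmm'] at h1
      have h3 := over_unique x₀ h1 h2
      rw [hσ m, hσ m'] at h3
      have h4 : (m : Ω) = (m' : Ω) := add_left_cancel h3
      exact_mod_cast h4
    have hsub : (fun m : ℕ => arithmeticGalois F₀ (σ m) • P (Fin.last n)) ''
        {m | arithmeticGalois F₀ (σ m) • D = D'} ⊆
        {Q | ell (D' + Finsupp.single Q 1) ≠ 1} := by
      rintro Q ⟨m, hm, rfl⟩
      show ell (D' + Finsupp.single (arithmeticGalois F₀ (σ m) • P (Fin.last n)) 1) ≠ 1
      have hm' : arithmeticGalois F₀ (σ m) • D = D' := hm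
      rw [← hm', ← SemilinearAut.smul_single, ← smul_add, ell_smul]
      exact hbad
    exact (hinf'.image hinj) (hfin.subset hsub)

end Fermat.Agent.Div
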