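/-
S17 / DIV (architect helper38), piece (L5), helper54.

**Descent of `n`-th parts**: if a class `x'` of `Pic0 (F_K')` satisfies `n • x' = bc y` with `y` a
class of `Pic0 (F_K)` (`K ⊂ K'` algebraically closed, characteristic `0`) and the `n`-torsion of
`Pic0 (F_K')` is finite, then `x' = bc x` with `n • x = y`.

Proof: the proof of `DescPlaces.torsion_descends` (helper82), with the principal divisor
`n D'' - bcDiv D₀` in place of `n D''`: the `Aut(K'/K)`-orbit of the class of `D'` lies in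
`[D'] + Pic0[n]`, which is finite.

Consequence (`jZero_divisible_of_complex`): divisibility by `n` of `Pic0 ℂ (F_ℂ(N))` implies
divisibility by `n` of `JZero N`.
-/
import Mathlib
import Fermat.Agent.F3.I2.Descent.Uncond

set_option autoImplicit false

noncomputable section

namespace Fermat.Agent.Div

open ModularCurve HahnSeries AlgebraicCurve Fermat.Agent.RR Fermat.Agent.F3I2

variable {K K' : Type*} [Field K] [Field K'] [Algebra ℚ K] [Algebra ℚ K'] [Algebra K K']
variable {F₀ : IntermediateField ℚ (LaurentSeries ℚ)}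

set_option maxHeartbeats 1000000 in
/-- **Descent of `n`-th parts** (divisor form). -/
theorem nsmul_descends (P : DescPlaces K K' F₀) [IsAlgClosed K] [IsAlgClosed K'] [CharZero K']
    (hK : IsRRField K (laurentBaseChange K F₀)) (hK' : IsRRField K' (laurentBaseChange K' F₀))
    (n : ℕ) (hn : 0 < n)
    (hfin : {c : Pic0 K' (laurentBaseChange K' F₀) | n • c = 0}.Finite)
    (D' : Divisor.degZero (K := K') (F := laurentBaseChange K' F₀))
    (D₀ : Divisor K (laurentBaseChange K F₀))
    (hD₀ : (n • (D' : Divisor K' (laurentBaseChange K' F₀)) - P.bcDiv D₀) ∈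
      Divisor.principal (K := K') (F := laurentBaseChange K' F₀)) :
    ∃ D : Divisor K (laurentBaseChange K F₀), Divisor.degree D = 0 ∧
      ((D' : Divisor K' (laurentBaseChange K' F₀)) - P.bcDiv D) ∈
        Divisor.principal (K := K') (F := laurentBaseChange K' F₀) := by
  classical
  obtain ⟨v₀⟩ := nonempty_place hK
  set P₀ := P.ext v₀ with hP₀
  have hD'0 : Divisor.degree (D' : Divisor K' (laurentBaseChange K' F₀)) = 0 := D'.2
  obtain ⟨m, E, hE, hED, huniq⟩ := exists_canonical_effective hK' P₀ (D' : Divisor K' _) hD'0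
  set D'' : Divisor K' (laurentBaseChange K' F₀) := E - Finsupp.single P₀ (m : ℤ) with hD''
  -- `n D'' - bcDiv D₀` is principal
  have hnD'' : (n • D'' - P.bcDiv D₀) ∈
      Divisor.principal (K := K') (F := laurentBaseChange K' F₀) := by
    have h2 := nsmul_mem hED n
    have h3 := add_mem h2 hD₀
    have h4 : n • (E - (D' : Divisor K' (laurentBaseChange K' F₀)) - Finsupp.single P₀ (m : ℤ))
        + (n • (D' : Divisor K' (laurentBaseChange K' F₀)) - P.bcDiv D₀)
        = n • D'' - P.bcDiv D₀ := by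
      rw [hD'', nsmul_sub, nsmul_sub, nsmul_sub]
      abel
    rwa [h4] at h3
  obtain ⟨x', hx'0, hx'⟩ := hnD''
  obtain ⟨c, k, hc, hk⟩ := descNormalize F₀ x' hx'0
  set x'' := algebraMap K' (laurentBaseChange K' F₀) c * x' with hx''
  have hcne : algebraMap K' (laurentBaseChange K' F₀) c ≠ 0 := by simpa using hc
  have hx''0 : x'' ≠ 0 := mul_ne_zero hcne hx'0
  have hord : ∀ w : Place K' (laurentBaseChange K' F₀),
      w.ord x'' = (n : ℤ) * D'' w - P.bcDiv D₀ w := by
    intro w
    rw [hx'', w.ord_mul hcne hx'0, descPlace_ord_algebraMap w hc, zero_add, ← hx' w]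
    simp
  have hconst : ∀ y : laurentBaseChange K' F₀, y ≠ 0 →
      (∀ w : Place K' (laurentBaseChange K' F₀), w.ord y = 0) →
      ∃ a : K', y = algebraMap K' (laurentBaseChange K' F₀) a :=
    fun y _ hy => descConst_of_isRRField hK' y hy
  -- the stabiliser of the class fixes `x''`
  have hfix : ∀ ρ ∈ descGal K K', arithmeticGalois F₀ ρ • Pic0.mk D' = Pic0.mk D' →
      arithmeticGalois F₀ ρ • x'' = x'' := by
    intro ρ hρ hρx
    set g := arithmeticGalois F₀ ρ with hg
    have hgD : (g • (D' : Divisor K' (laurentBaseChange K' F₀)) - D') ∈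
        Divisor.principal (K := K') (F := laurentBaseChange K' F₀) := by
      rw [SemilinearAut.pic0_smul_mk, descPic0_mk_eq_iff] at hρx
      exact hρx
    have hgE : g • E = E :=
      canonical_effective_fixed hK' P₀ _ hD'0 m E hE hED huniq g (P.smul_ext hρ v₀) hgD
    have hgD'' : g • D'' = D'' := by
      rw [hD'', smul_sub, hgE, SemilinearAut.smul_single, P.smul_ext hρ v₀]
    refine descFixed_of_ord F₀ hconst x'' k hk ρ fun w => ?_
    rw [hord, hord, P.bcDiv_smul_apply hρ]
    congr 2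
    have := SemilinearAut.divisor_smul_apply_smul g D'' w
    rw [hgD''] at this
    exact this
  have hkey : ∀ σ ∈ descGal K K', ∀ τ ∈ descGal K K',
      arithmeticGalois F₀ σ • Pic0.mk D' = arithmeticGalois F₀ τ • Pic0.mk D' →
      arithmeticGalois F₀ σ • x'' = arithmeticGalois F₀ τ • x'' := by
    intro σ hσ τ hτ h
    have hρ : τ⁻¹ * σ ∈ descGal K K' := mul_mem (inv_mem hτ) hσ
    have h1 : arithmeticGalois F₀ (τ⁻¹ * σ) • Pic0.mk D' = Pic0.mk D' := by
      rw [map_mul, mul_smul, h, ← mul_smul, map_inv, inv_mul_cancel, one_smul]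
    have h2 := hfix _ hρ h1
    have h3 : arithmeticGalois F₀ σ = arithmeticGalois F₀ τ * arithmeticGalois F₀ (τ⁻¹ * σ) := by
      rw [← map_mul, mul_inv_cancel_left]
    rw [h3, mul_smul, h2]
  -- the degree of `D₀`
  have hdegbc : Divisor.degree (P.bcDiv D₀) = 0 := by
    have h1 := descDegree_eq_zero_of_principal hK' hD₀
    rw [map_sub, map_nsmul, hD'0, smul_zero, zero_sub, neg_eq_zero] at h1
    exact h1
  -- `n [D']` is fixed by `Aut(K'/K)`
  have hnfix : ∀ σ ∈ descGal K K',
      n • (arithmeticGalois F₀ σ • Pic0.mk D' - Pic0.mk D') = 0 := by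
    intro σ hσ
    set g := arithmeticGalois F₀ σ with hg
    have hbc0 : P.bcDiv D₀ ∈ Divisor.degZero (K := K') (F := laurentBaseChange K' F₀) := by
      rw [Divisor.mem_degZero]; exact hdegbc
    have h1 : n • Pic0.mk D' = Pic0.mk ⟨P.bcDiv D₀, hbc0⟩ := by
      have h1' : n • Pic0.mk D' = Pic0.mk (n • D') := rfl
      rw [h1', descPic0_mk_eq_iff]
      exact hD₀
    have h2 : g • Pic0.mk (⟨P.bcDiv D₀, hbc0⟩ :
        Divisor.degZero (K := K') (F := laurentBaseChange K' F₀)) = Pic0.mk ⟨P.bcDiv D₀, hbc0⟩ := by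
      rw [SemilinearAut.pic0_smul_mk]
      congr 1
      apply Subtype.ext
      exact P.smul_bcDiv hσ D₀
    rw [nsmul_sub, smul_comm n g, h1, h2, sub_self]
  -- finite orbit
  have hfinorb : Set.Finite {y : laurentBaseChange K' F₀ |
      ∃ σ ∈ descGal K K', arithmeticGalois F₀ σ • x'' = y} := by
    let ψ : Pic0 K' (laurentBaseChange K' F₀) → laurentBaseChange K' F₀ := fun c =>
      if h : ∃ σ ∈ descGal K K', arithmeticGalois F₀ σ • Pic0.mk D' - Pic0.mk D' = c then
        arithmeticGalois F₀ h.choose • x'' else 0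
    refine (hfin.image ψ).subset ?_
    rintro y ⟨σ, hσ, rfl⟩
    refine ⟨arithmeticGalois F₀ σ • Pic0.mk D' - Pic0.mk D', hnfix σ hσ, ?_⟩
    have hex : ∃ τ ∈ descGal K K',
        arithmeticGalois F₀ τ • Pic0.mk D' - Pic0.mk D'
          = arithmeticGalois F₀ σ • Pic0.mk D' - Pic0.mk D' :=
      ⟨σ, hσ, rfl⟩
    show (if h : ∃ τ ∈ descGal K K',
        arithmeticGalois F₀ τ • Pic0.mk D' - Pic0.mk D'
          = arithmeticGalois F₀ σ • Pic0.mk D' - Pic0.mk D' then
      arithmeticGalois F₀ h.choose • x'' else 0) = _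
    rw [dif_pos hex]
    exact hkey _ hex.choose_spec.1 _ hσ (sub_left_injective hex.choose_spec.2)
  obtain ⟨h₀, hh₀⟩ := descTheta_of_finite_orbit K K' F₀ x'' hfinorb
  -- the divisor over `K`
  have hsupp : (D''.support : Set (Place K' (laurentBaseChange K' F₀))) ⊆ Set.range P.ext := by
    intro w hw
    rw [Finset.mem_coe, Finsupp.mem_support_iff] at hw
    by_cases hwe : ∃ v, P.ext v = w
    · exact hwe
    · exfalso
      rcases P.dich w with hv | h0
      · exact hwe hv
      · push Not at hwe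
        have h1 := hord w
        rw [← hh₀, h0 h₀, P.bcDiv_apply_of_not D₀ w hwe, sub_zero] at h1
        have hn0 : (n : ℤ) ≠ 0 := by exact_mod_cast hn.ne'
        exact hw ((mul_eq_zero.mp h1.symm).resolve_left hn0)
  let D : Divisor K (laurentBaseChange K F₀) :=
    Finsupp.comapDomain P.ext D'' P.ext_injective.injOn
  have hbc : P.bcDiv D = D'' := Finsupp.mapDomain_comapDomain P.ext P.ext_injective D'' hsupp
  have hDD' : ((D' : Divisor K' (laurentBaseChange K' F₀)) - P.bcDiv D) ∈
      Divisor.principal (K := K') (F := laurentBaseChange K' F₀) := by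
    rw [hbc, hD'']
    have := neg_mem hED
    have h2 : -(E - (D' : Divisor K' (laurentBaseChange K' F₀)) - Finsupp.single P₀ (m : ℤ))
        = (D' : Divisor K' (laurentBaseChange K' F₀)) - (E - Finsupp.single P₀ (m : ℤ)) := by
      abel
    rwa [h2] at this
  refine ⟨D, ?_, hDD'⟩
  have h1 := descDegree_eq_zero_of_principal hK' hDD'
  rw [map_sub, hD'0, zero_sub, neg_eq_zero, P.degree_bcDiv hK hK'] at h1
  exact h1

/-- **Descent of `n`-th parts** (class form): `n • x' = bc y` implies `x' = bc x`, `n • x = y`. -/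
theorem bc_of_nsmul_eq (P : DescPlaces K K' F₀) [IsAlgClosed K] [IsAlgClosed K'] [CharZero K']
    (hK : IsRRField K (laurentBaseChange K F₀)) (hK' : IsRRField K' (laurentBaseChange K' F₀))
    (n : ℕ) (hn : 0 < n)
    (hfin : {c : Pic0 K' (laurentBaseChange K' F₀) | n • c = 0}.Finite)
    (x' : Pic0 K' (laurentBaseChange K' F₀)) (y : Pic0 K (laurentBaseChange K F₀))
    (h : n • x' = P.bc hK hK' y) :
    ∃ x : Pic0 K (laurentBaseChange K F₀), P.bc hK hK' x = x' ∧ n • x = y := by
  obtain ⟨D', hD'⟩ := Pic0.mk_surjective x'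
  obtain ⟨D₀, hD₀y⟩ := Pic0.mk_surjective y
  have h2 : Pic0.mk (n • D') = Pic0.mk (P.bcDegZero hK hK' D₀) := by
    have h1 : n • Pic0.mk D' = Pic0.mk (n • D') := rfl
    rw [← h1, hD', h, ← hD₀y, DescPlaces.bc_mk]
  have hD₀ : (n • (D' : Divisor K' (laurentBaseChange K' F₀)) -
      P.bcDiv (D₀ : Divisor K (laurentBaseChange K F₀))) ∈
      Divisor.principal (K := K') (F := laurentBaseChange K' F₀) :=
    (descPic0_mk_eq_iff (n • D') (P.bcDegZero hK hK' D₀)).mp h2
  obtain ⟨D, hD0, hD⟩ := nsmul_descends (K := K) (K' := K') (F₀ := F₀) P hK hK' n hn hfin D'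
    (D₀ : Divisor K (laurentBaseChange K F₀)) hD₀
  have hx : P.bc hK hK' (Pic0.mk ⟨D, hD0⟩) = x' := by
    rw [DescPlaces.bc_mk, ← hD', descPic0_mk_eq_iff]
    have := neg_mem hD
    simpa using this
  refine ⟨Pic0.mk ⟨D, hD0⟩, hx, ?_⟩
  apply P.bc_injective hK hK'
  have h3 : P.bc hK hK' (n • Pic0.mk ⟨D, hD0⟩) = n • P.bc hK hK' (Pic0.mk ⟨D, hD0⟩) :=
    map_nsmul _ _ _
  rw [h3, hx, h]

/-- **Descent of `n`-th parts for `J₀(N)`**: a class of `Pic0 ℂ (F_ℂ(N))` whose `n`-th multiple
comes from `JZero N` comes from `JZero N`. -/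
theorem descBc_of_nsmul_eq (N : ℕ) [NeZero N] (n : ℕ) (hn : 0 < n)
    (x' : Pic0 ℂ (laurentBaseChange ℂ (modularFunctionFieldFull N))) (y : JZero N)
    (h : n • x' = descBc N y) :
    ∃ x : JZero N, descBc N x = x' ∧ n • x = y :=
  letI := descAlgebraQbarC
  bc_of_nsmul_eq (descPlacesQC (Fermat.Agent.RRMod.isRRField_bar N))
    (Fermat.Agent.RRMod.isRRField_bar N) (descIsRRField_FC N) n hn
    (Fermat.Agent.F3TF.finite_torsion_FC hn.ne') x' y h

/-- **DIV over `ℂ` implies DIV over `ℚ̄`.** -/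
theorem jZero_divisible_of_complex (N : ℕ) [NeZero N] (n : ℕ) (hn : 0 < n)
    (hC : ∀ c : Pic0 ℂ (laurentBaseChange ℂ (modularFunctionFieldFull N)),
      ∃ c' : Pic0 ℂ (laurentBaseChange ℂ (modularFunctionFieldFull N)), n • c' = c)
    (y : JZero N) : ∃ w : JZero N, n • w = y := by
  obtain ⟨x', hx'⟩ := hC (descBc N y)
  obtain ⟨x, -, hx⟩ := descBc_of_nsmul_eq N n hn x' y hx'
  exact ⟨x, hx⟩

end Fermat.Agent.Div
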