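import Fermat.Agent.Lib.Div.Defs
import Fermat.Agent.Lib.Div.FieldExt
import Fermat.Agent.Lib.Div.Fibre
import Fermat.Agent.Lib.Div.NonSpecial
import Fermat.Agent.Lib.RR.Weil
import Fermat.Agent.Lib.RR.NonSpecial

set_option autoImplicit false
set_option linter.unusedSectionVars false

/-!
# DIV, work package D: transfer of genericity, `(L3)` of the blueprint  (helper70)

`x = cls (P_1 + .. + P_g)` generic with `ℓ(P_1 + .. + P_g) = 1`, `z = cls E`, `E ≥ 0` of degree `g`,
and (H): for every finite `S ⊂ Ω`, if the orbit of `z` under `Aut(Ω / closField S)` is finite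
then so is the orbit of `x`.  Then `E = Q_1 + .. + Q_g` with `(Q_i)` generic.

Proof: `S :=` the set of values of `x` at the points of `E` (`≤ g` elements).  The orbit of `E` under
`Aut(Ω / closField S)` is finite (B6, B7), hence that of `z`, hence that of `x` (H), hence that of
`P_1 + .. + P_g` (uniqueness, `ℓ = 1`), hence of each `P_i` (B8), so `c_i ∈ closField S` (B9);
now (A3): `#S = g` and `S` is algebraically independent; in particular no point of `E` is a pole.
-/

noncomputable section

namespace Fermat.Agent.Div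

open ModularCurve HahnSeries AlgebraicCurve Fermat.Agent.RR Fermat.Agent.F3I2

section General

variable {K F : Type*} [Field K] [Field F] [Algebra K F]

/-- two divisors with the same class differ by a principal divisor. -/
theorem tr_exists_divOf_of_cls_eq (h : IsRRField K F) (P₀ : Place K F) {D D' : Divisor K F}
    (hdeg : Divisor.degree D = Divisor.degree D') (hc : cls h P₀ D = cls h P₀ D') :
    ∃ f : F, f ≠ 0 ∧ D' - D = divOf h f := by
  unfold cls at hc
  have h1 := QuotientAddGroup.eq.mp hc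
  rw [AddSubgroup.mem_addSubgroupOf] at h1
  have h2 : ((-(⟨D - Finsupp.single P₀ (Divisor.degree D), degree_sub_single h P₀ D⟩ :
      Divisor.degZero (K := K) (F := F)) +
      ⟨D' - Finsupp.single P₀ (Divisor.degree D'), degree_sub_single h P₀ D'⟩ :
      Divisor.degZero (K := K) (F := F)) : Divisor K F) = D' - D := by
    rw [AddSubgroup.coe_add, AddSubgroup.coe_neg]
    show -(D - Finsupp.single P₀ (Divisor.degree D)) +
      (D' - Finsupp.single P₀ (Divisor.degree D')) = D' - D
    rw [hdeg]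
    abel
  rw [h2] at h1
  exact (canon_mem_principal_iff h _).mp h1

/-- the divisor of a nonzero constant is zero. -/
theorem tr_divOf_algebraMap (h : IsRRField K F) {c : K} (hc : c ≠ 0) :
    divOf h (algebraMap K F c) = 0 := by
  ext v
  rw [divOf_apply, Finsupp.zero_apply]
  have h1 : algebraMap K F c * algebraMap K F c⁻¹ = 1 := by
    rw [← map_mul, mul_inv_cancel₀ hc, map_one]
  have h2 : algebraMap K F c⁻¹ * algebraMap K F c = 1 := by
    rw [mul_comm]; exact h1
  let u : v.toValuationSubringˣ :=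
    ⟨⟨algebraMap K F c, v.algebraMap_mem' c⟩, ⟨algebraMap K F c⁻¹, v.algebraMap_mem' c⁻¹⟩,
      Subtype.ext h1, Subtype.ext h2⟩
  exact v.ord_coe_unit u

/-- effective divisors of the same degree with the same class, one of them with `ℓ = 1`, are
equal (general form). -/
theorem tr_eq_of_cls_eq (h : IsRRField K F) (P₀ : Place K F) (D D' : Divisor K F)
    (hD : 0 ≤ D) (hD' : 0 ≤ D') (hell : ell D = 1)
    (hdeg : Divisor.degree D = Divisor.degree D') (hc : cls h P₀ D = cls h P₀ D') : D = D' := by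
  obtain ⟨f, hf, hfD⟩ := tr_exists_divOf_of_cls_eq h P₀ hdeg hc
  have hfL : f ∈ riemannRochSpace D := by
    rw [mem_riemannRochSpace_iff_le h hf, ← hfD]
    rw [Finsupp.le_def] at hD' ⊢
    intro v
    have := hD' v
    simp only [Finsupp.neg_apply, Finsupp.sub_apply, Finsupp.zero_apply] at this ⊢
    linarith
  obtain ⟨c, hc'⟩ := eq_algebraMap_of_mem_of_ell_eq_one h hD hell hfL
  have hc0 : c ≠ 0 := by
    rintro rfl
    rw [map_zero] at hc'
    exact hf hc'
  rw [hc', tr_divOf_algebraMap h hc0] at hfD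
  exact (sub_eq_zero.mp hfD).symm

/-- every class is `cls E` for an effective `E` of degree `g` (general form). -/
theorem tr_exists_effective_cls (h : IsRRField K F) (P₀ : Place K F) (z : Pic0 K F) :
    ∃ E : Divisor K F, 0 ≤ E ∧ Divisor.degree E = (genusFF K F : ℤ) ∧ z = cls h P₀ E := by
  obtain ⟨X, rfl⟩ := Pic0.mk_surjective z
  have hX : Divisor.degree (X : Divisor K F) = 0 := Divisor.mem_degZero.mp X.2
  set D : Divisor K F := (X : Divisor K F) + Finsupp.single P₀ (genusFF K F : ℤ) with hD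
  have hdegD : Divisor.degree D = (genusFF K F : ℤ) := by
    rw [hD, map_add, hX, degree_single_one h, zero_add]
  have hpos : 0 < Module.finrank K (riemannRochSpace D) := by
    have h1 := riemann_inequality h D
    rw [hdegD, ell_def] at h1
    have : (0 : ℤ) < (Module.finrank K (riemannRochSpace D) : ℤ) := by linarith
    exact_mod_cast this
  have hfin := finite_riemannRochSpace h D
  obtain ⟨⟨f, hfL⟩, hf0⟩ := Module.finrank_pos_iff_exists_ne_zero.mp hpos
  have hf : f ≠ 0 := fun h0 => hf0 (Subtype.ext h0)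
  have hle := (mem_riemannRochSpace_iff_le h hf).mp hfL
  refine ⟨D + divOf h f, ?_, ?_, ?_⟩
  · rw [Finsupp.le_def] at hle ⊢
    intro v
    have := hle v
    simp only [Finsupp.neg_apply, Finsupp.add_apply, Finsupp.zero_apply] at this ⊢
    linarith
  · rw [map_add, hdegD, degree_divOf, add_zero]
  · unfold cls
    refine QuotientAddGroup.eq.mpr ?_
    rw [AddSubgroup.mem_addSubgroupOf, canon_mem_principal_iff h]
    refine ⟨f, hf, ?_⟩
    rw [AddSubgroup.coe_add, AddSubgroup.coe_neg]
    show -(X : Divisor K F) + (D + divOf h f - Finsupp.single P₀ (Divisor.degree (D + divOf h f)))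
      = divOf h f
    rw [map_add, hdegD, degree_divOf, add_zero, hD]
    abel

/-- an effective divisor of degree `g` is a sum of `g` places. -/
theorem tr_exists_tuple (h : IsRRField K F) :
    ∀ (g : ℕ) (E : Divisor K F), 0 ≤ E → Divisor.degree E = (g : ℤ) →
      ∃ Q : Fin g → Place K F, E = ∑ i, Finsupp.single (Q i) (1 : ℤ) := by
  classical
  intro g
  induction g with
  | zero =>
    intro E hE hdeg
    refine ⟨Fin.elim0, ?_⟩
    rw [Finset.univ_eq_empty, Finset.sum_empty]
    exact eq_zero_of_nonneg_of_degree_eq_zero h hE (by simpa using hdeg)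
  | succ g ih =>
    intro E hE hdeg
    have hne : E ≠ 0 := by
      rintro rfl
      rw [map_zero] at hdeg
      have : (0 : ℤ) < ((g + 1 : ℕ) : ℤ) := by positivity
      omega
    obtain ⟨P, hP⟩ : ∃ P, E P ≠ 0 := by
      by_contra hcon
      push Not at hcon
      exact hne (Finsupp.ext hcon)
    have hEP : 1 ≤ E P := by
      have h0 : (0 : ℤ) ≤ E P := by
        have := Finsupp.le_def.mp hE P
        simpa using this
      omega
    have hE' : 0 ≤ E - Finsupp.single P 1 := by
      rw [Finsupp.le_def]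
      intro v
      rw [Finsupp.zero_apply, Finsupp.sub_apply, Finsupp.single_apply]
      split_ifs with hv
      · rw [← hv]; omega
      · have := Finsupp.le_def.mp hE v
        simpa using this
    have hdeg' : Divisor.degree (E - Finsupp.single P 1) = (g : ℤ) := by
      rw [map_sub, hdeg, degree_single_one h]
      push_cast
      ring
    obtain ⟨Q', hQ'⟩ := ih _ hE' hdeg'
    refine ⟨Fin.snoc Q' P, ?_⟩
    rw [Fin.sum_univ_castSucc]
    simp only [Fin.snoc_castSucc, Fin.snoc_last]
    rw [← hQ']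
    abel

/-- translation of `D - d P₀` by an automorphism fixing `P₀`. -/
theorem tr_smul_sub_single (g : SemilinearAut K F) (D : Divisor K F) (P₀ : Place K F) (d : ℤ)
    (hg : g • P₀ = P₀) :
    g • (D - Finsupp.single P₀ d) = g • D - Finsupp.single P₀ d := by
  classical
  ext v
  rw [SemilinearAut.divisor_smul_apply, Finsupp.sub_apply, Finsupp.sub_apply,
    SemilinearAut.divisor_smul_apply, Finsupp.single_apply, Finsupp.single_apply]
  have hiff : P₀ = g⁻¹ • v ↔ P₀ = v := by
    constructor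
    · intro h
      rw [eq_inv_smul_iff] at h
      rw [← h, hg]
    · intro h
      rw [eq_inv_smul_iff, ← h, hg]
  by_cases hv : P₀ = v
  · rw [if_pos (hiff.mpr hv), if_pos hv]
  · rw [if_neg (fun h => hv (hiff.mp h)), if_neg hv]

/-- translates of effective divisors are effective. -/
theorem tr_smul_nonneg (g : SemilinearAut K F) {D : Divisor K F} (hD : 0 ≤ D) : 0 ≤ g • D := by
  rw [Finsupp.le_def] at hD ⊢
  intro v
  rw [SemilinearAut.divisor_smul_apply]
  exact hD _

end General

variable {Ω : Type*} [Field Ω] [Algebra ℚ Ω] [IsAlgClosed Ω] [CharZero Ω]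
variable {F₀ : IntermediateField ℚ (LaurentSeries ℚ)}

omit [IsAlgClosed Ω] [CharZero Ω] in
/-- the points of `sumPl P` are in its support. -/
theorem tr_mem_support_sumPl {n : ℕ} (P : Fin n → Place Ω (laurentBaseChange Ω F₀)) (i : Fin n) :
    P i ∈ (sumPl P).support := by
  classical
  rw [Finsupp.mem_support_iff]
  unfold sumPl
  rw [Finsupp.finsetSum_apply]
  have h1 : ∀ j ∈ (Finset.univ : Finset (Fin n)),
      (0 : ℤ) ≤ (Finsupp.single (P j) (1 : ℤ)) (P i) := by
    intro j _
    rw [Finsupp.single_apply]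
    split_ifs <;> simp
  have h2 := Finset.single_le_sum h1 (Finset.mem_univ i)
  rw [Finsupp.single_eq_same] at h2
  omega

/-- the class of a Galois-translated divisor. -/
theorem smul_cls (hΩ : IsRRField Ω (laurentBaseChange Ω F₀))
    (P₀ : Place Ω (laurentBaseChange Ω F₀)) (σ : Ω ≃ₐ[ℚ] Ω)
    (hσ : arithmeticGalois F₀ σ • P₀ = P₀) (D : Divisor Ω (laurentBaseChange Ω F₀)) :
    arithmeticGalois F₀ σ • cls hΩ P₀ D = cls hΩ P₀ (arithmeticGalois F₀ σ • D) := by
  unfold cls
  rw [SemilinearAut.pic0_smul_mk]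
  congr 1
  apply Subtype.ext
  rw [SemilinearAut.coe_degZeroSMulHom]
  show arithmeticGalois F₀ σ • (D - Finsupp.single P₀ (Divisor.degree D)) =
    arithmeticGalois F₀ σ • D - Finsupp.single P₀ (Divisor.degree (arithmeticGalois F₀ σ • D))
  rw [SemilinearAut.degree_smul]
  exact tr_smul_sub_single _ D P₀ _ hσ

/-- effective divisors of the same degree with the same class, one of them with `ℓ = 1`, are
equal. -/
theorem eq_of_cls_eq (hΩ : IsRRField Ω (laurentBaseChange Ω F₀))
    (P₀ : Place Ω (laurentBaseChange Ω F₀)) (D D' : Divisor Ω (laurentBaseChange Ω F₀))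
    (hD : 0 ≤ D) (hD' : 0 ≤ D') (hell : ell D = 1)
    (hdeg : Divisor.degree D = Divisor.degree D') (h : cls hΩ P₀ D = cls hΩ P₀ D') : D = D' :=
  tr_eq_of_cls_eq hΩ P₀ D D' hD hD' hell hdeg h

/-- every class is `cls E` for an effective `E` of degree `g` (Riemann's inequality). -/
theorem exists_effective_cls (hΩ : IsRRField Ω (laurentBaseChange Ω F₀))
    (P₀ : Place Ω (laurentBaseChange Ω F₀)) (z : Pic0 Ω (laurentBaseChange Ω F₀)) :
    ∃ E : Divisor Ω (laurentBaseChange Ω F₀), 0 ≤ E ∧
      Divisor.degree E = (genusFF Ω (laurentBaseChange Ω F₀) : ℤ) ∧ z = cls hΩ P₀ E :=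
  tr_exists_effective_cls hΩ P₀ z

/-- the orbit of a class is finite if the orbit of the divisor is. -/
theorem tr_finite_orbit_cls (hΩ : IsRRField Ω (laurentBaseChange Ω F₀))
    (P₀ : Place Ω (laurentBaseChange Ω F₀)) (H : Subgroup (Ω ≃ₐ[ℚ] Ω))
    (hP₀ : ∀ σ ∈ H, arithmeticGalois F₀ σ • P₀ = P₀)
    (E : Divisor Ω (laurentBaseChange Ω F₀)) (hE : (orbitOf F₀ H E).Finite) :
    (orbitOf F₀ H (cls hΩ P₀ E)).Finite := by
  refine (hE.image (cls hΩ P₀)).subset ?_
  rintro _ ⟨σ, hσ, rfl⟩
  exact ⟨_, ⟨σ, hσ, rfl⟩, (smul_cls hΩ P₀ σ (hP₀ σ hσ) E).symm⟩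

/-- the orbit of an effective divisor with `ℓ = 1` is finite if the orbit of its class is. -/
theorem tr_finite_orbit_of_cls (hΩ : IsRRField Ω (laurentBaseChange Ω F₀))
    (P₀ : Place Ω (laurentBaseChange Ω F₀)) (H : Subgroup (Ω ≃ₐ[ℚ] Ω))
    (hP₀ : ∀ σ ∈ H, arithmeticGalois F₀ σ • P₀ = P₀)
    (D : Divisor Ω (laurentBaseChange Ω F₀)) (hD : 0 ≤ D) (hell : ell D = 1)
    (hfin : (orbitOf F₀ H (cls hΩ P₀ D)).Finite) : (orbitOf F₀ H D).Finite := by
  apply Set.Finite.of_finite_image (f := cls hΩ P₀)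
  · refine hfin.subset ?_
    rintro _ ⟨_, ⟨σ, hσ, rfl⟩, rfl⟩
    exact ⟨σ, hσ, smul_cls hΩ P₀ σ (hP₀ σ hσ) _⟩
  · rintro _ ⟨σ, hσ, rfl⟩ _ ⟨τ, hτ, rfl⟩ heq
    refine eq_of_cls_eq hΩ P₀ _ _ (tr_smul_nonneg _ hD) (tr_smul_nonneg _ hD) ?_ ?_ heq
    · rw [ell_smul]; exact hell
    · rw [SemilinearAut.degree_smul, SemilinearAut.degree_smul]

/-- **(D) = (L3)**: transfer of genericity. -/
theorem isGenTuple_of_transfer (hΩ : IsRRField Ω (laurentBaseChange Ω F₀)) (x₀ : F₀)
    (hx : ∃ P : Place Ω (laurentBaseChange Ω F₀), P.ord (xOf Ω x₀) < 0)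
    (P₀ : Place Ω (laurentBaseChange Ω F₀))
    (hP₀ : ∀ σ ∈ galOver (∅ : Set Ω), arithmeticGalois F₀ σ • P₀ = P₀)
    {g : ℕ} (P : Fin g → Place Ω (laurentBaseChange Ω F₀)) (hP : IsGenTuple x₀ P)
    (hell : ell (sumPl P) = 1)
    (E : Divisor Ω (laurentBaseChange Ω F₀)) (hE : 0 ≤ E) (hdeg : Divisor.degree E = (g : ℤ))
    (H : ∀ S : Finset Ω, (orbitOf F₀ (galOver (S : Set Ω)) (cls hΩ P₀ E)).Finite →
      (orbitOf F₀ (galOver (S : Set Ω)) (cls hΩ P₀ (sumPl P))).Finite) :
    ∃ Q : Fin g → Place Ω (laurentBaseChange Ω F₀), E = sumPl Q ∧ IsGenTuple x₀ Q := by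
  classical
  obtain ⟨Q, hQ⟩ := tr_exists_tuple hΩ g E hE hdeg
  have hEQ : E = sumPl Q := hQ
  obtain ⟨c, hc, hover⟩ := hP
  -- the values of the coordinate function at the points of `E`
  set c' : Fin g → Ω := fun i => if h : ∃ a, Over x₀ (Q i) a then h.choose else 0 with hc'
  have hc'spec : ∀ i, (∃ a, Over x₀ (Q i) a) → Over x₀ (Q i) (c' i) := by
    intro i h
    simp only [hc', dif_pos h]
    exact h.choose_spec
  set S : Finset Ω := Finset.univ.image c' with hS
  have hScard : S.card ≤ g := by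
    calc S.card ≤ (Finset.univ : Finset (Fin g)).card := Finset.card_image_le
      _ = g := by simp
  have hmemS' : ∀ i, c' i ∈ (S : Set Ω) := fun i =>
    Finset.mem_coe.mpr (Finset.mem_image_of_mem _ (Finset.mem_univ i))
  have hmemS : ∀ i, c' i ∈ closField (S : Set Ω) := fun i => subset_closField _ (hmemS' i)
  -- the orbit of `E` is finite
  have horbE : (orbitOf F₀ (galOver (S : Set Ω)) E).Finite := by
    apply finite_orbit_divisor
    intro R hR
    rw [hEQ] at hR
    obtain ⟨i, rfl⟩ := nsp_support_sumPl Q hR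
    rcases pole_or_over hΩ x₀ hx (Q i) with hp | ho
    · exact finite_orbit_of_pole hΩ x₀ _ hp
    · exact finite_orbit_of_over hΩ x₀ _ (hc'spec i ho) (hmemS i)
  have hfixP₀ : ∀ σ ∈ galOver (S : Set Ω), arithmeticGalois F₀ σ • P₀ = P₀ :=
    fun σ hσ => hP₀ σ (galOver_anti (Set.empty_subset _) hσ)
  have horbx := H S (tr_finite_orbit_cls hΩ P₀ _ hfixP₀ E horbE)
  have horbD : (orbitOf F₀ (galOver (S : Set Ω)) (sumPl P)).Finite :=
    tr_finite_orbit_of_cls hΩ P₀ _ hfixP₀ _ (nsp_sumPl_nonneg P) hell horbx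
  -- the values `c i` are algebraic over `ℚ(S)`
  have hcS : ∀ i, c i ∈ closField (S : Set Ω) := fun i =>
    mem_closField_of_finite_orbit_place x₀ _ (hover i)
      (finite_orbit_of_mem_support _ _ horbD (tr_mem_support_sumPl P i))
  obtain ⟨hcard, hind⟩ := algebraicIndependent_of_mem_closField c hc S hScard hcS
  have hinj : Function.Injective c' := by
    have h1 : (Finset.univ.image c').card = (Finset.univ : Finset (Fin g)).card := by
      rw [← hS, hcard]; simp
    have h2 := Finset.injOn_of_card_image_eq h1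
    intro i j hij
    exact h2 (Finset.mem_coe.mpr (Finset.mem_univ i)) (Finset.mem_coe.mpr (Finset.mem_univ j)) hij
  have hind' : AlgebraicIndependent ℚ c' :=
    hind.comp (fun i : Fin g => (⟨c' i, hmemS' i⟩ : (S : Set Ω)))
      (fun i j hij => hinj (congrArg Subtype.val hij))
  have hover' : ∀ i, Over x₀ (Q i) (c' i) := by
    intro i
    rcases pole_or_over hΩ x₀ hx (Q i) with hp | ho
    · exfalso
      have hnot : ¬ ∃ a, Over x₀ (Q i) a := fun ⟨a, ha⟩ =>
        absurd hp (not_lt.mpr (not_pole_of_over x₀ ha))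
      have h0 : c' i = 0 := by simp only [hc', dif_neg hnot]
      have htr := hind'.transcendental i
      rw [h0] at htr
      exact htr isAlgebraic_zero
    · exact hc'spec i ho
  exact ⟨Q, hEQ, c', hind', hover'⟩

end Fermat.Agent.Div
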