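import Fermat.Agent.Lib.Div.FieldExt
import Fermat.Agent.Lib.Div.Fibre
import Fermat.Agent.Lib.Div.NonSpecial
import Fermat.Agent.Lib.Div.Transfer
import Fermat.Agent.Lib.Div.Gen
import Fermat.Agent.Lib.Div.Conj
import Fermat.Agent.Lib.Div.NsmulDescent

set_option autoImplicit false

/-!
# DIV, assembly (helper38): `Pic0 (F_k)` is divisible

`divisible_of_setup`: abstract form (`k ⊂ Ω` algebraically closed, `Ω` uncountable, `k/ℚ` algebraic).
-/

noncomputable section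

namespace Fermat.Agent.Div

open ModularCurve HahnSeries AlgebraicCurve Fermat.Agent.RR Fermat.Agent.F3I2 Cardinal

section Orbits

variable {Ω : Type*} [Field Ω] [Algebra ℚ Ω]
variable {F₀ : IntermediateField ℚ (LaurentSeries ℚ)}

theorem orbitOf_mono {X : Type*} [SMul (SemilinearAut Ω (laurentBaseChange Ω F₀)) X]
    {H H' : Subgroup (Ω ≃ₐ[ℚ] Ω)} (h : H ≤ H') (x : X) :
    orbitOf F₀ H x ⊆ orbitOf F₀ H' x := by
  rintro y ⟨σ, hσ, rfl⟩
  exact ⟨σ, h hσ, rfl⟩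

/-- if the orbit of `n • x` is finite and the `n`-torsion is finite, the orbit of `x` is finite. -/
theorem finite_orbit_of_nsmul (n : ℕ)
    (htors : {c : Pic0 Ω (laurentBaseChange Ω F₀) | n • c = 0}.Finite)
    (H : Subgroup (Ω ≃ₐ[ℚ] Ω)) (x : Pic0 Ω (laurentBaseChange Ω F₀))
    (h : (orbitOf F₀ H (n • x)).Finite) : (orbitOf F₀ H x).Finite := by
  classical
  -- the orbit of `x` maps to the orbit of `n • x` with finite fibres
  refine Set.Finite.of_finite_fibers (fun y => n • y) (h.subset ?_) ?_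
  · rintro _ ⟨y, ⟨σ, hσ, rfl⟩, rfl⟩
    exact ⟨σ, hσ, (smul_comm n (arithmeticGalois F₀ σ) x).symm⟩
  · intro z _
    by_cases hne : ((orbitOf F₀ H x) ∩ (fun y => n • y) ⁻¹' {z}).Nonempty
    · obtain ⟨y₀, -, hy₀⟩ := hne
      have hy₀' : n • y₀ = z := hy₀
      refine (htors.image fun c => c + y₀).subset ?_
      rintro y ⟨-, hy⟩
      have hy' : n • y = z := hy
      refine ⟨y - y₀, ?_, by simp⟩
      show n • (y - y₀) = 0
      rw [nsmul_sub, hy', hy₀', sub_self]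
    · rw [Set.not_nonempty_iff_eq_empty] at hne
      rw [hne]
      exact Set.finite_empty

/-- translating by a fixed class does not change finiteness of orbits. -/
theorem finite_orbit_of_sub_fixed (H : Subgroup (Ω ≃ₐ[ℚ] Ω))
    (x b : Pic0 Ω (laurentBaseChange Ω F₀))
    (hb : ∀ σ ∈ H, arithmeticGalois F₀ σ • b = b)
    (h : (orbitOf F₀ H (x - b)).Finite) : (orbitOf F₀ H x).Finite := by
  refine (h.image fun c => c + b).subset ?_
  rintro _ ⟨σ, hσ, rfl⟩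
  refine ⟨arithmeticGalois F₀ σ • (x - b), ⟨σ, hσ, rfl⟩, ?_⟩
  show arithmeticGalois F₀ σ • (x - b) + b = _
  rw [smul_sub, hb σ hσ, sub_add_cancel]

theorem sumPl_nonneg {n : ℕ} (Q : Fin n → Place Ω (laurentBaseChange Ω F₀)) :
    0 ≤ sumPl Q := by
  unfold sumPl
  refine Finset.sum_nonneg fun i _ => ?_
  rw [Finsupp.le_def]
  intro v
  classical
  rw [Finsupp.single_apply]
  split_ifs <;> simp

theorem degree_sumPl (hΩ : IsRRField Ω (laurentBaseChange Ω F₀)) {n : ℕ}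
    (Q : Fin n → Place Ω (laurentBaseChange Ω F₀)) :
    Divisor.degree (sumPl Q) = (n : ℤ) := by
  unfold sumPl
  rw [map_sum]
  simp [Divisor.degree_single, hΩ.deg_one]

theorem smul_sumPl (σ : Ω ≃ₐ[ℚ] Ω) {n : ℕ} (Q : Fin n → Place Ω (laurentBaseChange Ω F₀)) :
    arithmeticGalois F₀ σ • sumPl Q = sumPl fun i => arithmeticGalois F₀ σ • Q i := by
  unfold sumPl
  rw [Finset.smul_sum]
  refine Finset.sum_congr rfl fun i _ => ?_
  rw [SemilinearAut.smul_single]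

end Orbits

/-- `Aut(Ω / closField ∅)` fixes the image of every algebraic extension `k` of `ℚ`. -/
theorem galOver_empty_le_descGal {Ω k : Type*} [Field Ω] [Algebra ℚ Ω] [Field k] [Algebra ℚ k]
    [Algebra k Ω] [Algebra.IsAlgebraic ℚ k] :
    galOver (∅ : Set Ω) ≤ descGal k Ω := by
  intro σ hσ a
  have ha : IsAlgebraic ℚ (algebraMap k Ω a) := by
    have h1 : IsAlgebraic ℚ a := Algebra.IsAlgebraic.isAlgebraic a
    have h2 := h1.algHom ((algebraMap k Ω).toRatAlgHom)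
    exact h2
  exact (mem_galOver.mp hσ) _ (mem_closField_of_isAlgebraic ha ∅)

/-- the classes in the range of `bc` are fixed by `Aut(K'/K)`. -/
theorem smul_bc_fixed {K K' : Type*} [Field K] [Field K'] [Algebra ℚ K] [Algebra ℚ K']
    [Algebra K K'] {F₀ : IntermediateField ℚ (LaurentSeries ℚ)}
    (P : DescPlaces K K' F₀) (hK : IsRRField K (laurentBaseChange K F₀))
    (hK' : IsRRField K' (laurentBaseChange K' F₀)) {σ : K' ≃ₐ[ℚ] K'} (hσ : σ ∈ descGal K K')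
    (y : Pic0 K (laurentBaseChange K F₀)) :
    arithmeticGalois F₀ σ • P.bc hK hK' y = P.bc hK hK' y := by
  obtain ⟨D, rfl⟩ := Pic0.mk_surjective y
  rw [DescPlaces.bc_mk, SemilinearAut.pic0_smul_mk]
  congr 1
  apply Subtype.ext
  show arithmeticGalois F₀ σ • P.bcDiv (D : Divisor K _) = P.bcDiv (D : Divisor K _)
  exact P.smul_bcDiv hσ _

section Main

variable {Ω k : Type} [Field Ω] [Algebra ℚ Ω] [IsAlgClosed Ω] [CharZero Ω]
  [Field k] [Algebra ℚ k] [Algebra k Ω] [IsAlgClosed k] [Algebra.IsAlgebraic ℚ k]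
variable {F₀ : IntermediateField ℚ (LaurentSeries ℚ)}

/-- **(G1)** generic classes are divisible. -/
theorem exists_nsmul_eq_cls_of_isGenTuple (hcard : ℵ₀ < #Ω)
    (hRR : ∀ S : Finset Ω, IsRRField ↥(closField (S : Set Ω))
      (laurentBaseChange ↥(closField (S : Set Ω)) F₀))
    (hΩ : IsRRField Ω (laurentBaseChange Ω F₀)) (x₀ : F₀)
    (hx : ∃ P : Place Ω (laurentBaseChange Ω F₀), P.ord (xOf Ω x₀) < 0)
    (n : ℕ) (htors : {c : Pic0 Ω (laurentBaseChange Ω F₀) | n • c = 0}.Finite)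
    (P₀ : Place Ω (laurentBaseChange Ω F₀))
    (hP₀ : ∀ σ ∈ galOver (∅ : Set Ω), arithmeticGalois F₀ σ • P₀ = P₀)
    (Q : Fin (genusFF Ω (laurentBaseChange Ω F₀)) → Place Ω (laurentBaseChange Ω F₀))
    (hQ : IsGenTuple x₀ Q) :
    ∃ w : Pic0 Ω (laurentBaseChange Ω F₀), n • w = cls hΩ P₀ (sumPl Q) := by
  have hell := ell_sumPl_eq_one hΩ x₀ le_rfl Q hQ
  obtain ⟨E, hE, hEdeg, hEz⟩ := exists_effective_cls hΩ P₀ (n • cls hΩ P₀ (sumPl Q))
  obtain ⟨Q', hQ'E, hQ'⟩ := isGenTuple_of_transfer hΩ x₀ hx P₀ hP₀ Q hQ hell E hE hEdeg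
    (fun S hfin => by
      rw [← hEz] at hfin
      exact finite_orbit_of_nsmul n htors _ _ hfin)
  obtain ⟨σ, hσ, hσQ⟩ := exists_conj hcard hRR hΩ x₀ hx Q Q' hQ hQ'
  refine ⟨arithmeticGalois F₀ σ • cls hΩ P₀ (sumPl Q), ?_⟩
  rw [smul_comm n (arithmeticGalois F₀ σ), hEz, hQ'E, smul_cls hΩ P₀ σ (hP₀ σ hσ), smul_sumPl]
  congr 2
  funext i
  exact hσQ i

/-- **DIV, abstract form.** -/
theorem divisible_of_setup (hcard : ℵ₀ < #Ω)
    (hRR : ∀ S : Finset Ω, IsRRField ↥(closField (S : Set Ω))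
      (laurentBaseChange ↥(closField (S : Set Ω)) F₀))
    (hk : IsRRField k (laurentBaseChange k F₀))
    (hΩ : IsRRField Ω (laurentBaseChange Ω F₀)) (x₀ : F₀)
    (hx : ∃ P : Place Ω (laurentBaseChange Ω F₀), P.ord (xOf Ω x₀) < 0)
    (n : ℕ) (hn : 0 < n) (htors : {c : Pic0 Ω (laurentBaseChange Ω F₀) | n • c = 0}.Finite)
    (y : Pic0 k (laurentBaseChange k F₀)) :
    ∃ w : Pic0 k (laurentBaseChange k F₀), n • w = y := by
  classical
  obtain ⟨P, -⟩ : ∃ P : DescPlaces k Ω F₀, P = Fermat.Agent.ConstExt.descPlacesOfRR k Ω F₀ hk :=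
    ⟨_, rfl⟩
  obtain ⟨v₀⟩ := nonempty_place hk
  obtain ⟨P₀, hP₀def⟩ : ∃ P₀ : Place Ω (laurentBaseChange Ω F₀), P₀ = P.ext v₀ := ⟨_, rfl⟩
  have hle : galOver (∅ : Set Ω) ≤ descGal k Ω := galOver_empty_le_descGal
  have hP₀ : ∀ σ ∈ galOver (∅ : Set Ω), arithmeticGalois F₀ σ • P₀ = P₀ := by
    intro σ hσ
    rw [hP₀def]
    exact P.smul_ext (hle hσ) v₀
  obtain ⟨b, hb⟩ : ∃ b : Pic0 Ω (laurentBaseChange Ω F₀), b = P.bc hk hΩ y := ⟨_, rfl⟩
  have hbfix : ∀ σ ∈ descGal k Ω, arithmeticGalois F₀ σ • b = b := by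
    intro σ hσ
    rw [hb]
    exact smul_bc_fixed P hk hΩ hσ y
  -- a generic tuple
  obtain ⟨c, hc⟩ := exists_algebraicIndependent (Ω := Ω) hcard
    (genusFF Ω (laurentBaseChange Ω F₀))
  choose Q hQc using fun i => exists_over hΩ x₀ hx (c i)
  have hQ : IsGenTuple x₀ Q := ⟨c, hc, hQc⟩
  have hell := ell_sumPl_eq_one hΩ x₀ le_rfl Q hQ
  -- `x - b` is generic
  obtain ⟨E, hE, hEdeg, hEz⟩ := exists_effective_cls hΩ P₀ (cls hΩ P₀ (sumPl Q) - b)
  obtain ⟨Q', hQ'E, hQ'⟩ := isGenTuple_of_transfer hΩ x₀ hx P₀ hP₀ Q hQ hell E hE hEdeg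
    (fun S hfin => by
      rw [← hEz] at hfin
      refine finite_orbit_of_sub_fixed _ _ b (fun σ hσ => hbfix σ ?_) hfin
      exact hle (galOver_anti (Set.empty_subset _) hσ))
  -- both are divisible
  obtain ⟨w₁, hw₁⟩ := exists_nsmul_eq_cls_of_isGenTuple hcard hRR hΩ x₀ hx n htors P₀ hP₀ Q hQ
  obtain ⟨w₂, hw₂⟩ := exists_nsmul_eq_cls_of_isGenTuple hcard hRR hΩ x₀ hx n htors P₀ hP₀ Q' hQ'
  have hw : n • (w₁ - w₂) = b := by
    rw [nsmul_sub, hw₁, hw₂, ← hQ'E, ← hEz]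
    abel
  -- descent
  rw [hb] at hw
  obtain ⟨w₀, -, hw₀⟩ := bc_of_nsmul_eq P hk hΩ n hn htors (w₁ - w₂) y hw
  exact ⟨w₀, hw₀⟩

end Main

end Fermat.Agent.Div
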